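import Fermat.Agent.S56.Loc.Arith1
import Fermat.Agent.S55.Places.Cyclo
import Fermat.Agent.S55.Places.Unram

/-!
# S56 / Loc / Arith3 : at `p`: `ω|I_p ≠ 1`, `h^1(D_p, μ_p) = 2`.    TASK S56/Loc-Arith3

* `exists_mem_Ip_cycloChar_ne_one` : otherwise every `σ ∈ Iq p` fixes a primitive `p`-th root of unity `ζ`
  (`cyclo_exists_primitiveRoot p`, `cycloChar_spec`: `σ ζ = ζ ^ 1`), so `Iq p ≤ (ℚ⟮ζ⟯).fixingSubgroup`
  (`cyclo_mem_fixingSubgroup_adjoin`, `cyclo_finiteDimensional_adjoin`); `nrm_of_unramified` gives `nrm p (1 - ζ) = p ^ k`, `k : ℤ`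
  (`1 - ζ ∈ ℚ⟮ζ⟯`, `≠ 0`), and `nrm_one_sub_zeta (n := 0)` gives `nrm p (1 - ζ) ^ (p - 1) = p⁻¹`; so `k * (p - 1) = -1` in `ℤ`
  (`zpow` injectivity, `p > 1`), impossible for `p ≥ 3`.
* `finrank_H1_mu_Dp` : `(locDatum p p).card_H1_μ : Nat.card (H1 L μ) = p ^ (1 + n) * Nat.card (torP p (H0 α))`, `n = locExp p p (Dq p) = 1`
  (see the proof of `loc_hyp` in S55/B/Trans/LocHyp.lean), and `torP p (H0 (rsub Gm (Dq p)))` is trivial: an element is `t : Qbarˣ` fixed by `Dq p`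
  with `t ^ p = 1`; by `exists_mem_Dq_map_zeta`/the previous lemma there is `σ ∈ Dq p` with `c := cycloChar p σ ≠ 1`, `σ t = t ^ c.val = t`,
  so `t ^ (c.val - 1) = 1` with `0 < c.val - 1 < p` or `c.val = 0` impossible..., hence `t = 1` (`gcd`: `t ^ p = 1`, `t ^ j = 1`, `p ∤ j`).
  Then `Nat.card = p ^ 2` and `Module.natCard_eq_pow_finrank` (finite: `finite_H1_μ`).
-/

set_option autoImplicit false

noncomputable section

namespace Fermat.Agent.S56.Loc

open Fermat.Agent.S55 Fermat.Agent.S55.Places ExtCitation Module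

variable {p : ℕ} [Fact p.Prime]

theorem exists_mem_Ip_cycloChar_ne_one (hp2 : p ≠ 2) : ∃ σ ∈ Iq p, cycloChar p σ ≠ 1 := by
  by_contra hcon
  push Not at hcon
  have hp : p.Prime := Fact.out
  have : NeZero p := ⟨hp.ne_zero⟩
  have : Fact (1 < p) := ⟨hp.one_lt⟩
  obtain ⟨ζ, hζ⟩ := cyclo_exists_primitiveRoot p
  have hfix : ∀ σ ∈ Iq p, σ ζ = ζ := by
    intro σ hσ
    have h1 := cycloChar_spec (p := p) σ (hζ.isUnit hp.ne_zero).unit
      (by
        apply Units.ext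
        simpa using hζ.pow_eq_one)
    rw [hcon σ hσ] at h1
    simpa [ZMod.val_one] using h1
  have hI : Iq p ≤ (IntermediateField.adjoin ℚ {ζ} : NF).fixingSubgroup := fun σ hσ =>
    cyclo_mem_fixingSubgroup_adjoin (hfix σ hσ)
  have := cyclo_finiteDimensional_adjoin ζ
  have hmem : (1 - ζ) ∈ (IntermediateField.adjoin ℚ {ζ} : NF) :=
    sub_mem (one_mem _) (IntermediateField.mem_adjoin_simple_self ℚ ζ)
  have hne : (1 - ζ) ≠ 0 := by
    intro h
    exact hζ.ne_one hp.one_lt (sub_eq_zero.mp h).symm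
  obtain ⟨k, hk⟩ := nrm_of_unramified (q := p) _ hI hmem hne
  have h2 := nrm_one_sub_zeta (p := p) (n := 0) (ζ := ζ) (by simpa using hζ)
  rw [hk, pow_zero, one_mul, ← zpow_natCast, ← zpow_mul, ← zpow_neg_one] at h2
  have hp0 : (0 : ℝ) < p := by exact_mod_cast hp.pos
  have hp1 : (p : ℝ) ≠ 1 := by exact_mod_cast hp.one_lt.ne'
  have h3 : k * ((p - 1 : ℕ) : ℤ) = -1 := zpow_right_injective₀ hp0 hp1 h2
  have h4 : (2 : ℤ) ≤ ((p - 1 : ℕ) : ℤ) := by
    have := hp.two_le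
    have : 2 ≤ p - 1 := by omega
    exact_mod_cast this
  rcases le_or_gt 0 k with hk0 | hk0
  · nlinarith
  · nlinarith

theorem Arith3_torP_eq_bot (hp2 : p ≠ 2) : torP p ↥(H0 (rsub Gm (Dq p))) = ⊥ := by
  have hp : p.Prime := Fact.out
  obtain ⟨σ, hσ, hc⟩ := exists_mem_Ip_cycloChar_ne_one (p := p) hp2
  rw [eq_bot_iff]
  intro x hx
  rw [AddSubgroup.mem_bot]
  have hx' : p • x = 0 := hx
  set t : Qbarˣ := Additive.toMul (x : Additive Qbarˣ) with ht
  have htp : t ^ p = 1 := by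
    have := congrArg (fun y : ↥(H0 (rsub Gm (Dq p))) => Additive.toMul (y : Additive Qbarˣ)) hx'
    simpa using this
  have hfix : σ (t : Qbar) = (t : Qbar) := by
    have h1 := (mem_H0_Gm_iff (Dq p) (x : Additive Qbarˣ)).mp x.2
    exact mem_Fix_iff.mp h1 σ (Iq_le_Dq p hσ)
  have hspec := cycloChar_spec (p := p) σ t htp
  rw [hfix] at hspec
  set c : ℕ := ((cycloChar p σ : (ZMod p)ˣ) : ZMod p).val with hcdef
  have : NeZero p := ⟨hp.ne_zero⟩
  have : Fact (1 < p) := ⟨hp.one_lt⟩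
  have hclt : c < p := ZMod.val_lt _
  have hc0 : c ≠ 0 := by
    intro h0
    have : ((cycloChar p σ : (ZMod p)ˣ) : ZMod p) = 0 := (ZMod.val_eq_zero _).mp h0
    exact (cycloChar p σ).ne_zero this
  have hc1 : c ≠ 1 := by
    intro h1
    apply hc
    apply Units.ext
    apply ZMod.val_injective p
    rw [← hcdef, h1, Units.val_one, ZMod.val_one]
  have hpow : t ^ (c - 1) = 1 := by
    apply Units.ext
    have h5 : (t : Qbar) * (t : Qbar) ^ (c - 1) = (t : Qbar) * 1 := by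
      rw [← pow_succ', Nat.sub_add_cancel (Nat.one_le_iff_ne_zero.mpr hc0), mul_one]
      exact hspec.symm
    simpa using mul_left_cancel₀ t.ne_zero h5
  have hcop : Nat.Coprime p (c - 1) :=
    (Nat.Prime.coprime_iff_not_dvd hp).2 (Nat.not_dvd_of_pos_of_lt (by omega) (by omega))
  have hord : orderOf t = 1 :=
    Nat.eq_one_of_dvd_coprimes hcop (orderOf_dvd_of_pow_eq_one htp) (orderOf_dvd_of_pow_eq_one hpow)
  have ht1 : t = 1 := orderOf_eq_one_iff.mp hord
  apply Subtype.ext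
  exact Additive.toMul.injective ht1

theorem finrank_H1_mu_Dp (hp2 : p ≠ 2) : finrank (ZMod p) (H1 (Lq p) (muq p p)) = 2 := by
  have hn : (locDatum p p).n = 1 := by
    show locExp p p (Dq p) = 1
    unfold Places.locExp
    rw [Subgroup.subgroupOf_self, Subgroup.index_top]
    simp
  have h1 := (locDatum p p).card_H1_μ
  have := (locDatum p p).kummer_finite_H1_μ
  rw [hn] at h1
  have h2 : Nat.card ↥(torP p ↥(H0 (locDatum p p).α)) = 1 := by
    show Nat.card ↥(torP p ↥(H0 (rsub Gm (Dq p)))) = 1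
    rw [Arith3_torP_eq_bot hp2]
    exact AddSubgroup.card_bot
  rw [h2, mul_one, Module.natCard_eq_pow_finrank (K := ZMod p), Nat.card_zmod] at h1
  exact Nat.pow_right_injective (Fact.out : p.Prime).two_le h1

end Fermat.Agent.S56.Loc

end
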