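import Fermat.Agent.S55.L.Duality.Glue

/-!
# S56 / Loc / OrdCount : abstract counting for the ordinary condition.  TASK S56/Loc-OrdCount

(1) `finrank_range_i1_le` : for a SES `0 → A → B → C → 0` of smooth f.d. representations with `H1 L ρA` finite dimensional:
    `finrank (range (H^1 A → H^1 B)) + finrank H^0(C) ≤ finrank H^1(A) + finrank H^0(B)`.
    PROOF: `Exact.exact_δ0_i1`: `finrank H1A = finrank range δ0 + finrank range i1` (`Numerics.finrank_of_exact`);
    `Exact.exact_π0_δ0`: `finrank H0C = finrank range π0 + finrank range δ0`; `finrank range π0 ≤ finrank H0B`.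
(2) `finrank_H1_scalar` : if `ρ g = ω g • 1` for all `g` then `finrank H1 L ρ = finrank X * finrank H1 L (muOf ω)`.
    PROOF: as `finrank_H1_trivial` (S55/L/Duality/Triv.lean): `e := (finBasis _ X).equivFun` intertwines `ρ` with
    `piRep (fun _ => muOf ω)`; `finrank_H1_congr`, `pi_bijective1`, `Module.finrank_pi_fintype`/`finrank_pi`.
-/

set_option autoImplicit false

noncomputable section

namespace Fermat.Agent.S56.Loc

open Fermat.Agent.S55 Module

variable {k : Type} [Field k] {H : Type} [Group H]
variable {A B C : Type} [AddCommGroup A] [Module k A] [AddCommGroup B] [Module k B]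
  [AddCommGroup C] [Module k C]
variable {ρA : Representation k H A} {ρB : Representation k H B} {ρC : Representation k H C}

theorem finrank_range_i1_le (L : Levels H) [Smooth L ρB] (E : SES ρA ρB ρC)
    [FiniteDimensional k B] [FiniteDimensional k C] [FiniteDimensional k (H1 L ρA)] :
    finrank k ↥(LinearMap.range (E.iP L).map1) + finrank k ↥(H0 ρC) ≤
      finrank k (H1 L ρA) + finrank k ↥(H0 ρB) := by
  have e1 := Numerics.finrank_of_exact (E.δ0 L) (E.iP L).map1 (E.exact_δ0_i1 L)
  have e2 := Numerics.finrank_of_exact (E.πP L).map0 (E.δ0 L) (E.exact_π0_δ0 L)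
  have e3 : finrank k ↥(LinearMap.range (E.πP L).map0) ≤ finrank k ↥(H0 ρB) :=
    LinearMap.finrank_range_le _
  omega

/-- `dim (M^d) = d * dim M`, also for infinite dimensional `M`. -/
lemma OrdCount_finrank_fun (d : ℕ) (M : Type) [AddCommGroup M] [Module k M] :
    finrank k (Fin d → M) = d * finrank k M := by
  have : Module.Free k M := Module.Free.of_divisionRing k M
  unfold Module.finrank
  rw [rank_fun, map_mul, Cardinal.toNat_natCast, Fintype.card_fin]

variable {p : ℕ} [Fact p.Prime] {X : Type} [AddCommGroup X] [Module (ZMod p) X]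

theorem finrank_H1_scalar (L : Levels H) (ω : H →* (ZMod p)ˣ) (ρ : Representation (ZMod p) H X)
    [FiniteDimensional (ZMod p) X] (hρ : ∀ g x, ρ g x = (ω g : ZMod p) • x) :
    finrank (ZMod p) (H1 L ρ) = finrank (ZMod p) X * finrank (ZMod p) (H1 L (muOf ω)) := by
  have hcomm : ∀ (h : H) (x : X), (Module.finBasis (ZMod p) X).equivFun (ρ h x) =
      piRep (fun _ : Fin (finrank (ZMod p) X) => muOf ω) h
        ((Module.finBasis (ZMod p) X).equivFun x) := by
    intro h x
    rw [hρ, map_smul]
    ext j
    rfl
  rw [finrank_H1_congr L (Module.finBasis (ZMod p) X).equivFun hcomm,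
    (LinearEquiv.ofBijective _ (pi_bijective1 L
      (fun _ : Fin (finrank (ZMod p) X) => muOf ω))).finrank_eq, OrdCount_finrank_fun]

end Fermat.Agent.S56.Loc

end
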