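import Fermat.Agent.S56.Loc.OrdDefs
import Fermat.Agent.S56.Loc.OrdCount
import Fermat.Agent.S56.Loc.Arith3

/-!
# S56 / Loc / OrdDim : `finrank Lord ≤ h^0(D_p, ad⁰) + f`.       TASK S56/Loc-OrdDim

`ρ := rsub (ad0 p M) (Dq p)`, `W := W1 p B C`, `h : OrdShape p M B C`.  In the basis `B`: `r σ := C M σ B = !![ω z, y; 0, z]`, `r σ⁻¹`-matrix is its inverse
(`C M σ⁻¹ B`), `z ≠ 0`.  For `X := C m B`: `C (M σ m M σ⁻¹) B = r X r⁻¹`.
* `W1_stable`, `W1_scalar` : `X = !![0,b;0,0]` ⟹ `r X r⁻¹ = !![0, ω b; 0, 0]`; so `ρ σ m = ω σ • m` on `W` (conjugate back with `B _ C`; `ZMod p`-scalar: `Algebra.smul_def`/`algebraMap_smul`).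
* `finrank_W1_le` : `m ↦ (C m B) 0 1` is an injective `ZMod p`-linear map `W → k` (`LinearMap.finrank_le_finrank_of_injective`).
* `le_finrank_H0_quot` : `c ↦ [B !![c,0;0,-c] C]` is an injective linear map `k → H0 (ρ.quotient W _)`: `r !![c,0;0,-c] r⁻¹ - !![c,0;0,-c] = !![0,*;0,0]`.
* `Lord_le_range` : a cocycle with values in `W` is `i ∘ (cocycle of the subrepresentation)` (`E := SES.ofSub ρ W W1_stable`; level-ness: `Levels.IsLevel₁.of_comp` with `Subtype.val_injective`).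
* `finrank_Lord_le` : `finrank_range_i1_le (Lq p) E`, `finrank_H1_scalar (Lq p) ω' _ W1_scalar` with `ω' := (cycloChar p).comp (Dq p).subtype`,
  `muOf ω' = muq p p` (`ext`, `muOf_apply`, `mu_apply`), `finrank_H1_mu_Dp hp2 = 2`; finite dimensionality of `H1` : `loc_fin1 hp2`; `Submodule.finrank_mono`.
  `finrank Lord + f ≤ finrank range + h0(quot) ≤ 2 * finrank W + h0 ≤ 2 f + h0`.
-/

set_option autoImplicit false

noncomputable section

namespace Fermat.Agent.S56.Loc

open Fermat.Agent.S55 Fermat.Agent.S55.Places ExtCitation Module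

variable {p : ℕ} [Fact p.Prime] {k : Type} [Field k] [Algebra (ZMod p) k]
variable {M : GQ →* M2 k} {B C : M2 k}

/-- `r X r⁻¹ = w X` for `r = !![w z, y; 0, z]`, `X = !![0, x; 0, 0]`. -/
lemma OrdDim_conj_upper (R R' X : M2 k) (w : k) (hRR : R * R' = 1) (h10 : R 1 0 = 0)
    (h00 : R 0 0 = w * R 1 1) (x00 : X 0 0 = 0) (x10 : X 1 0 = 0) (x11 : X 1 1 = 0) :
    R * X * R' = w • X := by
  have e10 := congrFun (congrFun hRR 1) 0
  have e11 := congrFun (congrFun hRR 1) 1
  simp only [Matrix.mul_apply, Fin.sum_univ_two, h10, zero_mul, zero_add, Matrix.one_apply_eq] at e10 e11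
  have e10' : R 1 1 * R' 1 0 = 0 := by simpa using e10
  have hz : R 1 1 ≠ 0 := by
    intro h
    rw [h, zero_mul] at e11
    exact zero_ne_one e11
  have hc : R' 1 0 = 0 := (mul_eq_zero.mp e10').resolve_left hz
  ext i j
  fin_cases i <;> fin_cases j <;>
    simp only [Matrix.mul_apply, Fin.sum_univ_two, Matrix.smul_apply, smul_eq_mul, Fin.zero_eta,
      Fin.mk_one, Fin.isValue, h10, h00, x00, x10, x11, hc, zero_mul, mul_zero, add_zero, zero_add]
  rw [mul_assoc, mul_assoc, mul_left_comm (R 1 1), e11, mul_one]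

/-- the diagonal part: `r !![c,0;0,-c] r⁻¹ - !![c,0;0,-c]` is strictly upper triangular. -/
lemma OrdDim_conj_diag (R R' : M2 k) (c : k) (hRR : R * R' = 1) (h10 : R 1 0 = 0) :
    (R * !![c, 0; 0, -c] * R' - !![c, 0; 0, -c]) 0 0 = 0 ∧
    (R * !![c, 0; 0, -c] * R' - !![c, 0; 0, -c]) 1 0 = 0 ∧
    (R * !![c, 0; 0, -c] * R' - !![c, 0; 0, -c]) 1 1 = 0 := by
  have e00 := congrFun (congrFun hRR 0) 0
  have e10 := congrFun (congrFun hRR 1) 0
  have e11 := congrFun (congrFun hRR 1) 1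
  simp only [Matrix.mul_apply, Fin.sum_univ_two, h10, zero_mul, zero_add, Matrix.one_apply_eq] at e00 e10 e11
  have e10' : R 1 1 * R' 1 0 = 0 := by simpa using e10
  have hz : R 1 1 ≠ 0 := by
    intro h
    rw [h, zero_mul] at e11
    exact zero_ne_one e11
  have hc : R' 1 0 = 0 := (mul_eq_zero.mp e10').resolve_left hz
  rw [hc, mul_zero, add_zero] at e00
  refine ⟨?_, ?_, ?_⟩ <;>
    simp [Matrix.mul_apply, Fin.sum_univ_two, h10, hc]
  · linear_combination c * e00
  · linear_combination (-c) * e11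

lemma OrdDim_sandwich (hBC : B * C = 1) (X : M2 k) : B * (C * X * B) * C = X := by
  calc B * (C * X * B) * C = (B * C) * X * (B * C) := by simp only [mul_assoc]
    _ = X := by rw [hBC, one_mul, mul_one]

lemma OrdDim_RR (h : OrdShape p M B C) (σ : GQ) :
    (C * M σ * B) * (C * M σ⁻¹ * B) = 1 := by
  calc (C * M σ * B) * (C * M σ⁻¹ * B) = C * (M σ * (B * C) * M σ⁻¹) * B := by
        simp only [mul_assoc]
    _ = 1 := by rw [h.mul, mul_one, map_mul_inv, mul_one, h.mul']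

lemma OrdDim_conj (h : OrdShape p M B C) (σ : GQ) (X : M2 k) :
    C * (M σ * X * M σ⁻¹) * B = (C * M σ * B) * (C * X * B) * (C * M σ⁻¹ * B) := by
  calc C * (M σ * X * M σ⁻¹) * B = C * (M σ * 1 * X * 1 * M σ⁻¹) * B := by
        rw [mul_one, mul_one]
    _ = (C * M σ * B) * (C * X * B) * (C * M σ⁻¹ * B) := by
        rw [← h.mul]; simp only [mul_assoc]

theorem W1_scalar (h : OrdShape p M B C) (σ : Dq p) (m : Ad0 p k) (hm : m ∈ W1 p B C) :
    rsub (ad0 p M) (Dq p) σ m = ((cycloChar p (σ : GQ) : (ZMod p)ˣ) : ZMod p) • m := by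
  apply Subtype.ext
  show M σ * (m : M2 k) * M (σ : GQ)⁻¹ = _ • (m : M2 k)
  have key := OrdDim_conj_upper (C * M σ * B) (C * M (σ : GQ)⁻¹ * B) (C * m * B) (omK p k σ)
    (OrdDim_RR h σ) (h.low σ σ.2) (h.diag σ σ.2) hm.1 hm.2.1 hm.2.2
  rw [← OrdDim_conj h] at key
  have key2 := congrArg (fun Y => B * Y * C) key
  simp only [OrdDim_sandwich h.mul, Matrix.mul_smul, Matrix.smul_mul] at key2
  rw [key2, omK, algebraMap_smul]

theorem W1_stable (h : OrdShape p M B C) (σ : Dq p) :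
    W1 p B C ≤ (W1 p B C).comap (rsub (ad0 p M) (Dq p) σ) := by
  intro m hm
  rw [Submodule.mem_comap, W1_scalar h σ m hm]
  exact (W1 p B C).smul_mem _ hm

/-- the upper right entry in the basis `B`. -/
def OrdDim_entry (p : ℕ) [Fact p.Prime] {k : Type} [Field k] [Algebra (ZMod p) k] (B C : M2 k) :
    ↥(W1 p B C) →ₗ[ZMod p] k where
  toFun m := (C * ((m : Ad0 p k) : M2 k) * B) 0 1
  map_add' a b := by
    simp only [Submodule.coe_add, mul_add, add_mul, Matrix.add_apply]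
  map_smul' c a := by
    simp only [Submodule.coe_smul, Matrix.mul_smul, Matrix.smul_mul, Matrix.smul_apply,
      RingHom.id_apply]

theorem finrank_W1_le [Finite k] (hBC : B * C = 1) (hCB : C * B = 1) :
    finrank (ZMod p) ↥(W1 p B C) ≤ finrank (ZMod p) k := by
  have : Module.Finite (ZMod p) k := Module.Finite.of_finite
  refine LinearMap.finrank_le_finrank_of_injective (f := OrdDim_entry p B C) ?_
  rw [← LinearMap.ker_eq_bot, LinearMap.ker_eq_bot']
  intro m hm
  have hm' : (C * ((m : Ad0 p k) : M2 k) * B) 0 1 = 0 := hm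
  obtain ⟨h1, h2, h3⟩ := m.2
  have hz : C * ((m : Ad0 p k) : M2 k) * B = 0 := by
    ext i j
    fin_cases i <;> fin_cases j
    · exact h1
    · exact hm'
    · exact h2
    · exact h3
  apply Subtype.ext
  apply Subtype.ext
  have := OrdDim_sandwich hBC ((m : Ad0 p k) : M2 k)
  rw [hz, mul_zero, zero_mul] at this
  exact this.symm

lemma OrdDim_sandwich' (hCB : C * B = 1) (X : M2 k) : C * (B * X * C) * B = X := by
  calc C * (B * X * C) * B = (C * B) * X * (C * B) := by simp only [mul_assoc]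
    _ = X := by rw [hCB, one_mul, mul_one]

/-- `c ↦ B !![c,0;0,-c] C`. -/
def OrdDim_diag (p : ℕ) [Fact p.Prime] {k : Type} [Field k] [Algebra (ZMod p) k] (B C : M2 k)
    (hCB : C * B = 1) : k →ₗ[ZMod p] Ad0 p k where
  toFun c := ⟨B * !![c, 0; 0, -c] * C, by
    rw [mem_Ad0, Matrix.trace_mul_comm, ← mul_assoc, hCB, one_mul, Matrix.trace_fin_two]
    simp⟩
  map_add' a b := by
    apply Subtype.ext
    show B * !![a + b, 0; 0, -(a + b)] * C = B * !![a, 0; 0, -a] * C + B * !![b, 0; 0, -b] * C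
    rw [← add_mul, ← mul_add]
    congr 2
    ext i j
    fin_cases i <;> fin_cases j <;> simp [add_comm]
  map_smul' c a := by
    apply Subtype.ext
    show B * !![c • a, 0; 0, -(c • a)] * C = c • (B * !![a, 0; 0, -a] * C)
    rw [← Matrix.smul_mul, ← Matrix.mul_smul]
    congr 2
    ext i j
    fin_cases i <;> fin_cases j <;> simp

lemma OrdDim_diag_coe (hCB : C * B = 1) (c : k) :
    ((OrdDim_diag p B C hCB c : Ad0 p k) : M2 k) = B * !![c, 0; 0, -c] * C := rfl

theorem le_finrank_H0_quot [Finite k] (h : OrdShape p M B C) :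
    finrank (ZMod p) k ≤
      finrank (ZMod p) ↥(H0 ((rsub (ad0 p M) (Dq p)).quotient (W1 p B C) (W1_stable h))) := by
  have : Module.Finite (ZMod p) k := Module.Finite.of_finite
  have : Finite (M2 k) := inferInstance
  have : Finite (Ad0 p k) := inferInstance
  have : Module.Finite (ZMod p) (Ad0 p k) := Module.Finite.of_finite
  have hinv : ∀ c : k, (W1 p B C).mkQ (OrdDim_diag p B C h.mul' c) ∈
      H0 ((rsub (ad0 p M) (Dq p)).quotient (W1 p B C) (W1_stable h)) := by
    intro c σ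
    show (W1 p B C).mkQ (rsub (ad0 p M) (Dq p) σ (OrdDim_diag p B C h.mul' c)) = _
    rw [← sub_eq_zero, ← map_sub, Submodule.mkQ_apply, Submodule.Quotient.mk_eq_zero, mem_W1]
    have e : C * ((rsub (ad0 p M) (Dq p) σ (OrdDim_diag p B C h.mul' c) -
        OrdDim_diag p B C h.mul' c : Ad0 p k) : M2 k) * B =
        (C * M σ * B) * !![c, 0; 0, -c] * (C * M (σ : GQ)⁻¹ * B) - !![c, 0; 0, -c] := by
      show C * (M σ * (B * !![c, 0; 0, -c] * C) * M (σ : GQ)⁻¹ - B * !![c, 0; 0, -c] * C) * B = _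
      rw [mul_sub, sub_mul, OrdDim_conj h, OrdDim_sandwich' h.mul']
    unfold IsW1
    rw [e]
    exact OrdDim_conj_diag _ _ c (OrdDim_RR h σ) (h.low σ σ.2)
  refine LinearMap.finrank_le_finrank_of_injective
    (f := LinearMap.codRestrict _ ((W1 p B C).mkQ ∘ₗ OrdDim_diag p B C h.mul') hinv) ?_
  rw [← LinearMap.ker_eq_bot, LinearMap.ker_eq_bot']
  intro c hc
  have hc' : (W1 p B C).mkQ (OrdDim_diag p B C h.mul' c) = 0 := congrArg Subtype.val hc
  rw [Submodule.mkQ_apply, Submodule.Quotient.mk_eq_zero, mem_W1] at hc'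
  have := hc'.1
  rw [OrdDim_diag_coe, OrdDim_sandwich' h.mul'] at this
  simpa using this

theorem Lord_le_range (h : OrdShape p M B C) :
    Lord p M B C ≤ LinearMap.range
      ((SES.ofSub (rsub (ad0 p M) (Dq p)) (W1 p B C) (W1_stable h)).iP (Lq p)).map1 := by
  rintro _ ⟨z, hz, rfl⟩
  have hz' : ∀ σ : Dq p, (z : Dq p → Ad0 p k) σ ∈ W1 p B C := hz
  have hZ := mem_Z1.1 z.2
  have hw : (fun σ : Dq p => (⟨(z : Dq p → Ad0 p k) σ, hz' σ⟩ : ↥(W1 p B C))) ∈
      Z1 (Lq p) ((rsub (ad0 p M) (Dq p)).subrepresentation (W1 p B C) (W1_stable h)) := by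
    rw [mem_Z1]
    refine ⟨fun g g' => Subtype.ext (hZ.1 g g'), ?_⟩
    apply Levels.IsLevel₁.of_comp (Subtype.val_injective)
    exact hZ.2
  refine ⟨H1.mk (Lq p) ((rsub (ad0 p M) (Dq p)).subrepresentation (W1 p B C) (W1_stable h))
    ⟨_, hw⟩, ?_⟩
  rw [Pair.map1_mk]
  rfl

lemma OrdDim_muOf : muOf ((cycloChar p).comp (Dq p).subtype) = muq p p := by
  ext σ
  simp [muOf_apply]

theorem finrank_Lord_le [Finite k] (hp2 : p ≠ 2) (hfin : GaloisFactorsThroughFiniteLevel M)
    (h : OrdShape p M B C) :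
    finrank (ZMod p) ↥(Lord p M B C) ≤
      finrank (ZMod p) ↥(H0 (rsub (ad0 p M) (Dq p))) + finrank (ZMod p) k := by
  have : Module.Finite (ZMod p) k := Module.Finite.of_finite
  have : Finite (M2 k) := inferInstance
  have : Finite (Ad0 p k) := inferInstance
  have : Module.Finite (ZMod p) (Ad0 p k) := Module.Finite.of_finite
  have : Smooth Lall (ad0 p M) := smooth_ad0 p M hfin
  have : FiniteDimensional (ZMod p) (H1 (Lq p) (rsub (ad0 p M) (Dq p))) := loc_fin1 hp2 _
  have : FiniteDimensional (ZMod p) (H1 (Lq p)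
      ((rsub (ad0 p M) (Dq p)).subrepresentation (W1 p B C) (W1_stable h))) := loc_fin1 hp2 _
  have e1 := finrank_range_i1_le (Lq p)
    (SES.ofSub (rsub (ad0 p M) (Dq p)) (W1 p B C) (W1_stable h))
  have e2 := finrank_H1_scalar (Lq p) ((cycloChar p).comp (Dq p).subtype)
    ((rsub (ad0 p M) (Dq p)).subrepresentation (W1 p B C) (W1_stable h))
    (fun σ x => Subtype.ext (W1_scalar h σ x x.2))
  rw [OrdDim_muOf, finrank_H1_mu_Dp hp2] at e2
  have e3 := Submodule.finrank_mono (Lord_le_range h)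
  have e4 := finrank_W1_le (p := p) h.mul h.mul'
  have e5 := le_finrank_H0_quot h
  omega

end Fermat.Agent.S56.Loc

end
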