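import Fermat.Agent.S56.Loc.OrdDefs

/-!
# S56 / Loc / OrdRed : from the matrix form over `k[ε]` to `(OrdShape, cocycle in W¹ up to a coboundary)`.
TASK S56/Loc-OrdRed      (pure `2 × 2` matrix algebra over `DualNumber k`)

Notation: `B₀ = B.map fst`, `B₁ = B.map snd`, same for `C`.  From `B * C = 1`, `C * B = 1`:
`B₀ C₀ = 1 = C₀ B₀` (apply `fst` entrywise: `Matrix.map_mul` for the ring hom `TrivSqZeroExt.fstHom`), and `C₁ = - C₀ B₁ C₀` (snd part of `C * B = 1`: `C₀ B₁ + C₁ B₀ = 0`).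
For `N = liftMat M z σ` (`N₀ = g := M σ`, `N₁ = zz * g`, `zz := z σ`):
 `(C N B)₀ = C₀ g B₀ =: r`,  `(C N B)₁ = C₀ zz g B₀ + C₁ g B₀ + C₀ g B₁ = (c - n + r n r⁻¹) r`  with `c := C₀ zz B₀`, `n := C₀ B₁`, `r⁻¹ = C₀ (M σ⁻¹) B₀`.
Put `c'' := c - n + r n r⁻¹ = C₀ (zz - (ñ - g ñ g⁻¹)) B₀`, `ñ := B₁ C₀`.
 * `(1,0)`: fst: `r 1 0 = 0`; snd: `(c'' r) 1 0 = c'' 1 0 * r 0 0 = 0`; `r 0 0 ≠ 0` since `r` is invertible and upper triangular (`det r = r 0 0 * r 1 1 ≠ 0`): `c'' 1 0 = 0`.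
 * `(0,0) = ω (1,1)`: fst: `r 0 0 = ω r 1 1`; snd: `c'' 0 0 * r 0 0 = ω c'' 1 1 * r 1 1` (using `c'' 1 0 = 0 = r 1 0`), so `c'' 0 0 = c'' 1 1`;
   `tr c'' = tr zz = 0` (`Matrix.trace_mul_cycle`), `2 ≠ 0`: `c'' 0 0 = c'' 1 1 = 0`.
 * inertia: fst of `(1,1) = 1`.
So `zz - (ñ - g ñ g⁻¹) = zz - (g m g⁻¹ - m)` with `m := -(ñ - (tr ñ / 2) • 1)` (scalars drop out), `tr m = 0`.
Suggestion: first prove a POINTWISE lemma for one `σ` (matrices `g g' zz` with `g * g' = 1`), then assemble.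
-/

set_option autoImplicit false

noncomputable section

namespace Fermat.Agent.S56.Loc

open Fermat.Agent.S55 Fermat.Agent.S55.Places ExtCitation Module

variable {p : ℕ} [Fact p.Prime] {k : Type} [Field k] [Algebra (ZMod p) k]

omit [Fact p.Prime] [Algebra (ZMod p) k] in
theorem OrdRed_fst_mul (X Y : M2 (DualNumber k)) :
    (X * Y).map TrivSqZeroExt.fst = X.map TrivSqZeroExt.fst * Y.map TrivSqZeroExt.fst := by
  ext i j
  simp [Matrix.mul_apply, Fin.sum_univ_two]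

omit [Fact p.Prime] [Algebra (ZMod p) k] in
theorem OrdRed_snd_mul (X Y : M2 (DualNumber k)) :
    (X * Y).map TrivSqZeroExt.snd = X.map TrivSqZeroExt.fst * Y.map TrivSqZeroExt.snd +
      X.map TrivSqZeroExt.snd * Y.map TrivSqZeroExt.fst := by
  ext i j
  simp [Matrix.mul_apply, Fin.sum_univ_two]
  ring

omit [Fact p.Prime] [Algebra (ZMod p) k] in
/-- the pointwise statement. -/
theorem OrdRed_pointwise (h2 : (2 : k) ≠ 0) (B₀ B₁ C₀ C₁ g g' zz : M2 k) (ω : k)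
    (hBC : B₀ * C₀ = 1) (hCB : C₀ * B₀ = 1) (hC1 : C₀ * B₁ + C₁ * B₀ = 0)
    (hgg' : g * g' = 1) (hg'g : g' * g = 1) (htr : zz.trace = 0)
    (m : M2 k) (c : k) (hm : m = -(B₁ * C₀ - c • (1 : M2 k)))
    (r10 : (C₀ * g * B₀) 1 0 = 0)
    (s10 : (C₀ * (zz * g) * B₀ + C₁ * g * B₀ + C₀ * g * B₁) 1 0 = 0)
    (r00 : (C₀ * g * B₀) 0 0 = ω * (C₀ * g * B₀) 1 1)
    (s00 : (C₀ * (zz * g) * B₀ + C₁ * g * B₀ + C₀ * g * B₁) 0 0 =
      ω * (C₀ * (zz * g) * B₀ + C₁ * g * B₀ + C₀ * g * B₁) 1 1) :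
    IsW1 B₀ C₀ (zz - (g * m * g' - m)) := by
  set X := zz - (g * m * g' - m) with hX
  have hX' : X = zz + g * (B₁ * C₀) * g' - B₁ * C₀ := by
    rw [hX, hm]
    have : g * (c • (1 : M2 k)) * g' = c • (1 : M2 k) := by
      rw [mul_smul_comm, smul_mul_assoc, mul_one, hgg']
    rw [mul_neg, neg_mul, mul_sub, sub_mul, this]
    abel
  have hC1' : C₁ = -(C₀ * B₁ * C₀) := by
    have : C₁ * B₀ = -(C₀ * B₁) := by
      rw [eq_neg_iff_add_eq_zero, add_comm]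
      exact hC1
    calc C₁ = C₁ * (B₀ * C₀) := by rw [hBC, mul_one]
      _ = (C₁ * B₀) * C₀ := by rw [mul_assoc]
      _ = _ := by rw [this, neg_mul]
  set r := C₀ * g * B₀ with hr
  set cc := C₀ * X * B₀ with hcc
  have hs : C₀ * (zz * g) * B₀ + C₁ * g * B₀ + C₀ * g * B₁ = cc * r := by
    have e1 : cc * r = C₀ * (X * g) * B₀ := by
      rw [hcc, hr]
      calc C₀ * X * B₀ * (C₀ * g * B₀) = C₀ * X * (B₀ * C₀) * g * B₀ := by simp only [mul_assoc]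
        _ = _ := by
          rw [hBC, mul_one]
          simp only [mul_assoc]
    have e2 : X * g = zz * g + g * (B₁ * C₀) - B₁ * C₀ * g := by
      rw [hX', sub_mul, add_mul, mul_assoc (g * (B₁ * C₀)), hg'g, mul_one]
    have e3 : C₀ * (g * (B₁ * C₀)) * B₀ = C₀ * g * B₁ := by
      calc _ = C₀ * g * B₁ * (C₀ * B₀) := by simp only [mul_assoc]
        _ = _ := by rw [hCB, mul_one]
    rw [e1, e2, hC1', mul_sub, mul_add, sub_mul, add_mul, e3]
    simp only [mul_assoc, neg_mul]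
    abel
  have hdet : r 0 0 * r 1 1 ≠ 0 := by
    have h1 : r * (C₀ * g' * B₀) = 1 := by
      calc r * (C₀ * g' * B₀) = C₀ * g * (B₀ * C₀) * g' * B₀ := by simp only [hr, mul_assoc]
        _ = C₀ * (g * g') * B₀ := by
          rw [hBC, mul_one]
          simp only [mul_assoc]
        _ = 1 := by rw [hgg', mul_one, hCB]
    have h2' : r.det * (C₀ * g' * B₀).det = 1 := by rw [← Matrix.det_mul, h1, Matrix.det_one]
    rw [Matrix.det_fin_two, r10, mul_zero, sub_zero] at h2'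
    exact left_ne_zero_of_mul_eq_one h2'
  have hr00 : r 0 0 ≠ 0 := left_ne_zero_of_mul hdet
  have htrc : cc 0 0 + cc 1 1 = 0 := by
    have t1 : cc.trace = X.trace := by
      rw [hcc, Matrix.trace_mul_cycle, hBC, one_mul]
    have t2 : X.trace = 0 := by
      rw [hX', Matrix.trace_sub, Matrix.trace_add, Matrix.trace_mul_cycle, hg'g, one_mul, htr]
      ring
    rw [← Matrix.trace_fin_two, t1, t2]
  rw [hs] at s10 s00
  simp only [Matrix.mul_apply, Fin.sum_univ_two] at s10 s00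
  rw [r10] at s10 s00
  have c10 : cc 1 0 = 0 := by
    have : cc 1 0 * r 0 0 = 0 := by linear_combination s10
    exact (mul_eq_zero.1 this).resolve_right hr00
  have c01 : cc 0 0 = cc 1 1 := by
    have : (cc 0 0 - cc 1 1) * r 0 0 = 0 := by
      rw [c10] at s00
      linear_combination s00 - cc 1 1 * r00
    exact sub_eq_zero.1 ((mul_eq_zero.1 this).resolve_right hr00)
  have c00 : cc 0 0 = 0 := by
    have : (2 : k) * cc 0 0 = 0 := by linear_combination htrc + c01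
    exact (mul_eq_zero.1 this).resolve_left h2
  exact ⟨c00, c10, c01.symm.trans c00⟩

theorem ord_reduce (h2 : (2 : k) ≠ 0) (M : GQ →* M2 k) (z : GQ → M2 k)
    (htr : ∀ σ, (z σ).trace = 0) (B C : M2 (DualNumber k)) (hBC : B * C = 1) (hCB : C * B = 1)
    (hD : ∀ σ ∈ Dq p, (C * liftMat M z σ * B) 1 0 = 0 ∧
        (C * liftMat M z σ * B) 0 0 =
          TrivSqZeroExt.inl (omK p k σ) * (C * liftMat M z σ * B) 1 1)
    (hI : ∀ σ ∈ Iq p, (C * liftMat M z σ * B) 1 1 = 1) :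
    OrdShape p M (B.map TrivSqZeroExt.fst) (C.map TrivSqZeroExt.fst) ∧
      ∃ m : M2 k, m.trace = 0 ∧ ∀ σ ∈ Dq p,
        IsW1 (B.map TrivSqZeroExt.fst) (C.map TrivSqZeroExt.fst)
          (z σ - (M σ * m * M σ⁻¹ - m)) := by
  set B₀ := B.map TrivSqZeroExt.fst with hB₀
  set B₁ := B.map TrivSqZeroExt.snd with hB₁
  set C₀ := C.map TrivSqZeroExt.fst with hC₀
  set C₁ := C.map TrivSqZeroExt.snd with hC₁
  have one0 : (1 : M2 (DualNumber k)).map TrivSqZeroExt.fst = 1 :=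
    Matrix.map_one _ TrivSqZeroExt.fst_zero TrivSqZeroExt.fst_one
  have one1 : (1 : M2 (DualNumber k)).map TrivSqZeroExt.snd = 0 := by
    ext i j
    simp only [Matrix.map_apply, Matrix.one_apply, Matrix.zero_apply]
    split_ifs <;> simp
  have hBC₀ : B₀ * C₀ = 1 := by rw [hB₀, hC₀, ← OrdRed_fst_mul, hBC, one0]
  have hCB₀ : C₀ * B₀ = 1 := by rw [hB₀, hC₀, ← OrdRed_fst_mul, hCB, one0]
  have hC1 : C₀ * B₁ + C₁ * B₀ = 0 := by
    rw [hB₀, hC₀, hB₁, hC₁, ← OrdRed_snd_mul, hCB, one1]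
  have hN0 : ∀ σ, (liftMat M z σ).map TrivSqZeroExt.fst = M σ := by
    intro σ
    ext i j
    simp [liftMat_apply]
  have hN1 : ∀ σ, (liftMat M z σ).map TrivSqZeroExt.snd = z σ * M σ := by
    intro σ
    ext i j
    simp [liftMat_apply]
  have key0 : ∀ σ, (C * liftMat M z σ * B).map TrivSqZeroExt.fst = C₀ * M σ * B₀ := by
    intro σ
    rw [OrdRed_fst_mul, OrdRed_fst_mul, hN0]
  have key1 : ∀ σ, (C * liftMat M z σ * B).map TrivSqZeroExt.snd =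
      C₀ * (z σ * M σ) * B₀ + C₁ * M σ * B₀ + C₀ * M σ * B₁ := by
    intro σ
    rw [OrdRed_snd_mul, OrdRed_fst_mul, OrdRed_snd_mul, hN0, hN1, add_mul]
    abel
  have ent0 : ∀ σ i j, (C₀ * M σ * B₀) i j = TrivSqZeroExt.fst ((C * liftMat M z σ * B) i j) := by
    intro σ i j
    rw [← key0]
    rfl
  have ent1 : ∀ σ i j, (C₀ * (z σ * M σ) * B₀ + C₁ * M σ * B₀ + C₀ * M σ * B₁) i j =
      TrivSqZeroExt.snd ((C * liftMat M z σ * B) i j) := by
    intro σ i j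
    rw [← key1]
    rfl
  refine ⟨⟨hBC₀, hCB₀, ?_, ?_, ?_⟩, ?_⟩
  · intro σ hσ
    rw [ent0, (hD σ hσ).1, TrivSqZeroExt.fst_zero]
  · intro σ hσ
    rw [ent0, ent0, (hD σ hσ).2, TrivSqZeroExt.fst_mul, TrivSqZeroExt.fst_inl]
  · intro σ hσ
    rw [ent0, hI σ hσ, TrivSqZeroExt.fst_one]
  refine ⟨-(B₁ * C₀ - ((B₁ * C₀).trace / 2) • (1 : M2 k)), ?_, ?_⟩
  · rw [Matrix.trace_neg, Matrix.trace_sub, Matrix.trace_smul, Matrix.trace_one, Fintype.card_fin,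
      smul_eq_mul]
    push_cast
    field_simp
    ring
  intro σ hσ
  refine OrdRed_pointwise h2 B₀ B₁ C₀ C₁ (M σ) (M σ⁻¹) (z σ) (omK p k σ) hBC₀ hCB₀ hC1
    (by rw [← map_mul, mul_inv_cancel, map_one]) (by rw [← map_mul, inv_mul_cancel, map_one])
    (htr σ) _ _ rfl ?_ ?_ ?_ ?_
  · rw [ent0, (hD σ hσ).1, TrivSqZeroExt.fst_zero]
  · rw [ent1, (hD σ hσ).1, TrivSqZeroExt.snd_zero]
  · rw [ent0, ent0, (hD σ hσ).2, TrivSqZeroExt.fst_mul, TrivSqZeroExt.fst_inl]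
  · rw [ent1, ent1, (hD σ hσ).2, TrivSqZeroExt.snd_mul, TrivSqZeroExt.fst_inl,
      TrivSqZeroExt.snd_inl, smul_zero, add_zero, smul_eq_mul]

end Fermat.Agent.S56.Loc

end
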