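import Fermat.Agent.S56.Loc.OrdDefs
import Fermat.Agent.S56.Loc.Arith3

/-!
# S56 / Loc / OrdUniq : the ordinary line is unique.     TASK S56/Loc-OrdUniq

`h : OrdShape p M B C`, `h' : OrdShape p M B' C'`.  `T := C * B'`, `T' := C' * B` (`T T' = 1 = T' T`, `B' = B T`, `C' = T' C`).
Take `σ ∈ Iq p` with `cycloChar p σ ≠ 1` (`exists_mem_Ip_cycloChar_ne_one hp2`; `Iq_le_Dq`), so `ω := omK p k σ ≠ 1` (`algebraMap (ZMod p) k` is injective: `(algebraMap _ _).injective`, `Units.ext`).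
`r := C M σ B = !![ω, y; 0, 1]`, `r' := C' M σ B' = T' r T = !![ω, y'; 0, 1]`; from `r T = T r'`, entry `(1,0)`: `T 1 0 = T 1 0 * ω`... so `T 1 0 = 0`.
Same for `T'` (symmetric).  For `T, T'` upper triangular and `X` with `X 0 0 = X 1 0 = X 1 1 = 0`: `T' X T` has the same property (entries; `Matrix.mul_apply`, `Fin.sum_univ_two`).
`C' m B' = T' (C m B) T` and `C m B = T (C' m B') T'`.
-/

set_option autoImplicit false

noncomputable section

namespace Fermat.Agent.S56.Loc

open Fermat.Agent.S55 Fermat.Agent.S55.Places ExtCitation Module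

variable {p : ℕ} [Fact p.Prime] {k : Type} [Field k] [Algebra (ZMod p) k]

theorem OrdUniq_low (hp2 : p ≠ 2) {M : GQ →* M2 k} {B C B' C' : M2 k}
    (h : OrdShape p M B C) (h' : OrdShape p M B' C') : (C * B') 1 0 = 0 := by
  obtain ⟨σ, hσ, hc⟩ := exists_mem_Ip_cycloChar_ne_one (p := p) hp2
  have hσD : σ ∈ Dq p := Iq_le_Dq p hσ
  have hω : omK p k σ ≠ 1 := by
    intro h1
    apply hc
    apply Units.ext
    apply (algebraMap (ZMod p) k).injective
    rw [Units.val_one, map_one]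
    exact h1
  have hcomm : (C * M σ * B) * (C * B') = (C * B') * (C' * M σ * B') := by
    have e1 : (C * M σ * B) * (C * B') = C * M σ * (B * C) * B' := by simp only [mul_assoc]
    have e2 : (C * B') * (C' * M σ * B') = C * (B' * C') * M σ * B' := by simp only [mul_assoc]
    rw [e1, e2, h.mul, h'.mul, mul_one, mul_one]
  have h10 := congrFun (congrFun hcomm 1) 0
  rw [Matrix.mul_apply, Matrix.mul_apply, Fin.sum_univ_two, Fin.sum_univ_two, h.low σ hσD,
    h.inert σ hσ, h'.low σ hσD, h'.diag σ hσD, h'.inert σ hσ] at h10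
  have h2 : (C * B') 1 0 * (1 - omK p k σ) = 0 := by linear_combination h10
  exact (mul_eq_zero.1 h2).resolve_right (sub_ne_zero.2 (Ne.symm hω))

theorem OrdUniq_imp {B C B' C' : M2 k} (hBC : B * C = 1) (hT : (C * B') 1 0 = 0)
    (hT' : (C' * B) 1 0 = 0) {m : M2 k} (hm : IsW1 B C m) : IsW1 B' C' m := by
  obtain ⟨h00, h10, h11⟩ := hm
  have e : C' * m * B' = (C' * B) * (C * m * B) * (C * B') := by
    have e1 : (C' * B) * (C * m * B) * (C * B') = C' * (B * C) * m * (B * C) * B' := by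
      simp only [mul_assoc]
    rw [e1, hBC, mul_one, mul_one]
  refine ⟨?_, ?_, ?_⟩ <;> rw [e] <;>
    simp only [Matrix.mul_apply (M := (C' * B) * (C * m * B)), Matrix.mul_apply (M := C' * B),
      Fin.sum_univ_two, h00, h10, h11, hT, hT'] <;> ring

theorem isW1_iff_of_ordShape (hp2 : p ≠ 2) {M : GQ →* M2 k} {B C B' C' : M2 k}
    (h : OrdShape p M B C) (h' : OrdShape p M B' C') (m : M2 k) :
    IsW1 B C m ↔ IsW1 B' C' m :=
  ⟨OrdUniq_imp h.mul (OrdUniq_low hp2 h h') (OrdUniq_low hp2 h' h),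
    OrdUniq_imp h'.mul (OrdUniq_low hp2 h' h) (OrdUniq_low hp2 h h')⟩

end Fermat.Agent.S56.Loc

end
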