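import Fermat.Agent.S56.Loc.OrdData
import Fermat.Agent.S56.Loc.OrdRed
import Fermat.Agent.S56.Loc.OrdUniq
import Fermat.Agent.S56.Loc.OrdDim

/-!
# S56 / Loc / OrdMain : (O) in the shape of S56/Top/TargetLoc.lean.        TASK S56/Loc-OrdMain

`DqP (pPrime p) = Dq p` by `rfl` (unfold `DqP`, `pPrime`), `Lall.sub (Dq p) = Lq p` by `rfl`.
Let `𝒮` be the generating set of `Lcond p M P (pPrime p)`.
* If `𝒮 = ∅`: `Lcond = span ∅ = ⊥`, `finrank = 0` (`Submodule.span_empty`, `finrank_bot`).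
* Otherwise pick `(ρ'₀, z₀)`; `ord_data` + `ord_reduce` give `B₀ C₀` with `h₀ : OrdShape p M B₀ C₀`.
  CLAIM `Lcond ≤ Lord p M B₀ C₀` (`Submodule.span_le`): a generator `(ρ', z)` gives (`ord_data`, `ord_reduce`) `B' C'`, `h' : OrdShape p M B' C'`, `m` with `tr m = 0` and
  `IsW1 B' C' (z σ - (M σ m M σ⁻¹ - m))` on `D_p`; by `isW1_iff_of_ordShape hp2 h₀ h'` the same for `B₀ C₀`.  With `m' : Ad0 p k := ⟨m, _⟩`,
  `z' := (Pair.res ..).z1 z - ⟨d0 _ m', B1_le_Z1 ⟨m', rfl⟩⟩ ∈ ZW1 p M B₀ C₀` and `H1.mk z' = res (H1.mk z)` (`Pair.map1_mk`, `H1.mk_eq_zero_iff`; `Smooth`: `smooth_ad0 p M hM.fin` + `Smooth.rsub`).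
  Then `Submodule.finrank_mono` (finite dimensionality: `loc_fin1 hp2`) and `finrank_Lord_le hp2 hM.fin h₀`.
  `h2 : (2 : k) ≠ 0` as in UrMain; `htr`: `(mem_Ad0 p _).1 (z σ).2`.
-/

set_option autoImplicit false

noncomputable section

namespace Fermat.Agent.S56.Loc

open Fermat.Agent.S55 Fermat.Agent.S55.Places ExtCitation Module Polynomial

variable {p : ℕ} [Fact p.Prime] {k : Type} [Field k] [Finite k] [Algebra (ZMod p) k]

theorem ord_finrank (hp2 : p ≠ 2) (M : GQ →* M2 k) (hM : ResHyp p M) :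
    finrank (ZMod p) ↥(Lcond p M (fun ρ' => ρ'.DetIsCyclotomic p ∧ ρ'.IsStrictOrdinaryAt p)
        (pPrime p)) ≤
      finrank (ZMod p) ↥(H0 (rsub (ad0 p M) (DqP (pPrime p)))) + finrank (ZMod p) k := by
  have h2 : (2 : k) ≠ 0 := by
    have h2p : (2 : ZMod p) ≠ 0 := by
      intro h
      have h' : ((2 : ℕ) : ZMod p) = 0 := by exact_mod_cast h
      rw [ZMod.natCast_eq_zero_iff] at h'
      exact hp2 ((Nat.prime_dvd_prime_iff_eq (Fact.out : p.Prime) Nat.prime_two).1 h')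
    intro h
    apply h2p
    apply (algebraMap (ZMod p) k).injective
    rw [map_ofNat, map_zero, h]
  have hsm : Smooth Lall (ad0 p M) := smooth_ad0 p M hM.fin
  have : Finite (M2 k) := inferInstance
  have : FiniteDimensional (ZMod p) (Ad0 p k) := Module.Finite.of_finite
  have hfd : FiniteDimensional (ZMod p) (H1 (Lq p) (rsub (ad0 p M) (Dq p))) := loc_fin1 hp2 _
  -- key extraction
  have key : ∀ (ρ' : GaloisRepAdic (DualNumber k)) (z : ↥(Z1 Lall (ad0 p M))),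
      ρ'.IsStrictOrdinaryAt p →
      IsClassOf M ρ' (fun σ => (((z : GQ → Ad0 p k) σ : Ad0 p k) : M2 k)) →
      ∃ B C : M2 k, OrdShape p M B C ∧ ∃ m : M2 k, m.trace = 0 ∧ ∀ σ ∈ Dq p,
        IsW1 B C ((((z : GQ → Ad0 p k) σ : Ad0 p k) : M2 k) - (M σ * m * M σ⁻¹ - m)) := by
    intro ρ' z hO hc
    obtain ⟨B, C, hBC, hCB, hD, hI⟩ := ord_data M ρ' _ hc hO
    obtain ⟨hs, m, hm, hW⟩ := ord_reduce h2 M _
      (fun σ => (mem_Ad0 p _).1 ((z : GQ → Ad0 p k) σ).2) B C hBC hCB hD hI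
    exact ⟨_, _, hs, m, hm, hW⟩
  by_cases hne : ∃ (ρ' : GaloisRepAdic (DualNumber k)) (z : ↥(Z1 Lall (ad0 p M))),
      (ρ'.DetIsCyclotomic p ∧ ρ'.IsStrictOrdinaryAt p) ∧
      IsClassOf M ρ' (fun σ => (((z : GQ → Ad0 p k) σ : Ad0 p k) : M2 k))
  · obtain ⟨ρ₀, z₀, ⟨-, hO₀⟩, hc₀⟩ := hne
    obtain ⟨B₀, C₀, h₀, -⟩ := key ρ₀ z₀ hO₀ hc₀
    have hle : Lcond p M (fun ρ' => ρ'.DetIsCyclotomic p ∧ ρ'.IsStrictOrdinaryAt p)
        (pPrime p) ≤ Lord p M B₀ C₀ := by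
      refine Submodule.span_le.2 ?_
      rintro x ⟨ρ', z, ⟨-, hO⟩, hc, rfl⟩
      obtain ⟨B', C', h', m, hm, hW⟩ := key ρ' z hO hc
      let m' : Ad0 p k := ⟨m, (mem_Ad0 p _).2 hm⟩
      let b : ↥(Z1 (Lq p) (rsub (ad0 p M) (Dq p))) :=
        ⟨d0 (rsub (ad0 p M) (Dq p)) m', B1_le_Z1 ⟨m', rfl⟩⟩
      refine ⟨(Pair.res Lall (ad0 p M) (Dq p)).z1 z - b, ?_, ?_⟩
      · intro σ
        rw [mem_W1]
        exact (isW1_iff_of_ordShape hp2 h₀ h' _).2 (hW σ σ.2)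
      · have e : H1.mk (Lq p) (rsub (ad0 p M) (Dq p))
            ((Pair.res Lall (ad0 p M) (Dq p)).z1 z - b) =
            H1.mk (Lq p) (rsub (ad0 p M) (Dq p)) ((Pair.res Lall (ad0 p M) (Dq p)).z1 z) := by
          refine (Exact.H1_mk_eq_mk_iff _ _).2 ⟨-m', fun g => ?_⟩
          have e1 : (((Pair.res Lall (ad0 p M) (Dq p)).z1 z - b :
              ↥(Z1 (Lq p) (rsub (ad0 p M) (Dq p)))) : Dq p → Ad0 p k) g =
              ((Pair.res Lall (ad0 p M) (Dq p)).z1 z : Dq p → Ad0 p k) g -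
                (rsub (ad0 p M) (Dq p) g m' - m') := rfl
          rw [e1, map_neg]
          abel
        exact e
    have main : ∀ (L' : Submodule (ZMod p) (H1 (Lq p) (rsub (ad0 p M) (Dq p)))),
        L' ≤ Lord p M B₀ C₀ → finrank (ZMod p) ↥L' ≤
          finrank (ZMod p) ↥(H0 (rsub (ad0 p M) (Dq p))) + finrank (ZMod p) k := fun L' hL =>
      (Submodule.finrank_mono hL).trans (finrank_Lord_le hp2 hM.fin h₀)
    exact main _ hle
  · have : Lcond p M (fun ρ' => ρ'.DetIsCyclotomic p ∧ ρ'.IsStrictOrdinaryAt p)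
        (pPrime p) = ⊥ := by
      rw [eq_bot_iff]
      refine Submodule.span_le.2 ?_
      rintro x ⟨ρ', z, hP, hc, rfl⟩
      exact absurd ⟨ρ', z, hP, hc⟩ hne
    rw [this, finrank_bot]
    exact Nat.zero_le _

end Fermat.Agent.S56.Loc

end
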