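import Fermat.Agent.S55.L.Duality.Glue

/-!
# S56 / Loc / Tame : `h^1 ≤ 2 h^0` for `p'`-modules when `n = 0`, `μ_p` trivial.  TASK S56/Loc-Tame

`h : SplitHyp p L 0` (for every open `W`: `h^1(W;𝔽_p) = 2`, `h^2(W;𝔽_p) = 1`), `N ⊴ H` open of index
prime to `p`, acting trivially on `X`.  THEN `finrank H^1(H;X) ≤ 2 * finrank H^0(H;X)`.

PROOF.
(1) `res : H1 L ρ → H1 (L.sub N) (rsub ρ N)` is injective (`res_injective1 L ρ N hN hu`,
    `hu := isUnit_natCast_of_not_dvd hidx`; `Smooth L ρ` from `Smooth.of_forall_eq_one hN hρ`).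
(2) `res₀ : H1 L (trivF p H) → H1 (L.sub N) (trivF p N)` is injective (same lemma; `rsub (trivF p H) N = trivF p N` is `rfl`)
    between spaces of the same finrank `2` (`h.finrank_H1_triv`, `h.h1 N hN`, both finite dimensional since finrank ≠ 0),
    hence surjective (`LinearMap.injective_iff_surjective_of_finrank_eq_finrank`).
(3) Let `z ∈ Z1 L ρ`.  For `n ∈ N`, `g : H`: `z (g * n * g⁻¹) = ρ g (z n)`
    [`z (g n) = ρ g (z n) + z g` and `z ((g n g⁻¹) g) = ρ (g n g⁻¹) (z g) + z (g n g⁻¹) = z g + z (g n g⁻¹)`].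
    For `λ : Module.Dual (ZMod p) X`, `n ↦ λ (z n)` is in `Z1 (L.sub N) (trivF p N)`; by (2) its class is `res₀ [y]`, and `B1` of a
    trivial representation is `0`, so `λ (z n) = y n` for `n ∈ N` with `y : H → ZMod p` additive (a cocycle for the trivial action), so
    `λ (z (g n g⁻¹)) = y g + y n - y g = λ (z n)`.  As `λ` is arbitrary (`Module.forall_dual_apply_eq_zero_iff`),
    `ρ g (z n) = z n`:  `z n ∈ H0 ρ` for all `n ∈ N`.
(4) SES of `N`-representations (all trivial) `0 → H0 ρ → X → X ⧸ H0 ρ → 0`; by (3) `π_* (res [z]) = 0`, so by `Exact.exact_i1_π1`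
    `range res ≤ range i_*`, and `finrank (range i_*) ≤ finrank H1 (L.sub N) (trivial on H0 ρ) = finrank (H0 ρ) * 2`
    (`finrank_H1_trivial`, `h.h1 N hN`).
-/

set_option autoImplicit false

noncomputable section

namespace Fermat.Agent.S56.Loc

open Fermat.Agent.S55 Module

variable {p : ℕ} [Fact p.Prime] {H : Type} [Group H] {L : Levels H}
variable {X : Type} [AddCommGroup X] [Module (ZMod p) X]

theorem Tame_isUnit {n : ℕ} (h : ¬ p ∣ n) : IsUnit (n : ZMod p) := by
  rw [ZMod.isUnit_iff_coprime]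
  exact ((Nat.Prime.coprime_iff_not_dvd Fact.out).mpr h).symm

/-- step (2): restriction `H^1(H;𝔽_p) → H^1(N;𝔽_p)` is surjective. -/
theorem Tame_res_surjective (h : SplitHyp p L 0) (N : Subgroup H) (hN : L.IsOpen N)
    (hidx : ¬ p ∣ N.index) : Function.Surjective (Pair.res L (trivF p H) N).map1 := by
  have hsm : Smooth L (trivF p H) := Smooth.of_forall_eq_one L.isOpen_top (fun _ _ => rfl)
  have hinj := res_injective1 L (trivF p H) N hN (Tame_isUnit hidx)
  have h1 : finrank (ZMod p) (H1 L (trivF p H)) = 2 := by simpa using h.finrank_H1_triv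
  have h2 : finrank (ZMod p) (H1 (L.sub N) (rsub (trivF p H) N)) = 2 := by
    have := h.h1 N hN
    rw [zero_mul, add_zero] at this
    exact this
  have f1 : FiniteDimensional (ZMod p) (H1 L (trivF p H)) :=
    Module.finite_of_finrank_pos (by rw [h1]; norm_num)
  have f2 : FiniteDimensional (ZMod p) (H1 (L.sub N) (rsub (trivF p H) N)) :=
    Module.finite_of_finrank_pos (by rw [h2]; norm_num)
  exact (LinearMap.injective_iff_surjective_of_finrank_eq_finrank (h1.trans h2.symm)).1 hinj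

/-- step (3). -/
theorem cocycle_mem_H0_of_mem (h : SplitHyp p L 0) (N : Subgroup H) [N.Normal] (hN : L.IsOpen N)
    (hidx : ¬ p ∣ N.index) (ρ : Representation (ZMod p) H X) (hρ : ∀ g ∈ N, ρ g = 1)
    {z : H → X} (hz : z ∈ Z1 L ρ) {n : H} (hn : n ∈ N) : z n ∈ H0 ρ := by
  intro g
  have hz1 := (mem_Z1.1 hz).1
  have hconj : g * n * g⁻¹ ∈ N := ‹N.Normal›.conj_mem n hn g
  -- (a)
  have ha : z (g * n * g⁻¹) = ρ g (z n) := by
    have e1 := hz1 g n
    have e2 := hz1 (g * n * g⁻¹) g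
    rw [hρ _ hconj, Module.End.one_apply, inv_mul_cancel_right, e1] at e2
    rw [add_comm (z g)] at e2
    exact (add_right_cancel e2).symm
  rw [← sub_eq_zero, ← Module.forall_dual_apply_eq_zero_iff (ZMod p)]
  intro lam
  -- the cocycle `λ ∘ z` on `N`
  let Q : Pair (L.sub N) (rsub ρ N) (L.sub N) (rsub (trivF p H) N) :=
    Pair.coeff (L.sub N) lam (fun m x => by
      show lam (ρ (m : H) x) = lam x
      rw [hρ _ m.2, Module.End.one_apply])
  let w : ↥(Z1 (L.sub N) (rsub (trivF p H) N)) := Q.z1 ((Pair.res L ρ N).z1 ⟨z, hz⟩)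
  obtain ⟨c, hc⟩ := Tame_res_surjective h N hN hidx (H1.mk (L.sub N) (rsub (trivF p H) N) w)
  obtain ⟨y, rfl⟩ := H1.mk_surjective _ _ c
  rw [Pair.map1_mk, Exact.H1_mk_eq_mk_iff] at hc
  obtain ⟨x, hx⟩ := hc
  have hy : ∀ m (hm : m ∈ N), (y : H → ZMod p) m = lam (z m) := by
    intro m hm
    have := hx ⟨m, hm⟩
    have h0 : (rsub (trivF p H) N) ⟨m, hm⟩ x - x = 0 := sub_self x
    rw [h0, sub_eq_zero] at this
    exact this
  have hy1 : ∀ a b : H, (y : H → ZMod p) (a * b) = (y : H → ZMod p) b + (y : H → ZMod p) a :=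
    (mem_Z1.1 y.2).1
  have hyc : (y : H → ZMod p) (g * n * g⁻¹) = (y : H → ZMod p) n := by
    have e1 := hy1 g n
    have e2 := hy1 (g * n * g⁻¹) g
    rw [inv_mul_cancel_right, e1, add_comm ((y : H → ZMod p) g)] at e2
    exact (add_right_cancel e2).symm
  rw [map_sub, ← ha, ← hy _ hconj, ← hy _ hn, hyc, sub_self]

/-- the SES `0 → X^H → X → X/X^H → 0` of (trivial) `N`-representations. -/
def Tame_ses (N : Subgroup H) (ρ : Representation (ZMod p) H X) (hρ : ∀ g ∈ N, ρ g = 1) :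
    SES (Representation.trivial (ZMod p) N ↥(H0 ρ)) (rsub ρ N)
      (Representation.trivial (ZMod p) N (X ⧸ H0 ρ)) where
  i := (H0 ρ).subtype
  π := (H0 ρ).mkQ
  i_comm m a := by
    show (a : X) = ρ (m : H) (a : X)
    rw [hρ _ m.2, Module.End.one_apply]
  π_comm m b := by
    show (H0 ρ).mkQ (ρ (m : H) b) = (H0 ρ).mkQ b
    rw [hρ _ m.2, Module.End.one_apply]
  inj := Subtype.val_injective
  surj := Submodule.mkQ_surjective _
  exact := by
    intro b
    rw [Submodule.mkQ_apply, Submodule.Quotient.mk_eq_zero]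
    constructor
    · intro hb; exact ⟨⟨b, hb⟩, rfl⟩
    · rintro ⟨a, rfl⟩; exact a.2

/-- **MAIN**. -/
theorem finrank_H1_le_two_mul (h : SplitHyp p L 0) (N : Subgroup H) [N.Normal] (hN : L.IsOpen N)
    (hidx : ¬ p ∣ N.index) (ρ : Representation (ZMod p) H X) [FiniteDimensional (ZMod p) X]
    (hρ : ∀ g ∈ N, ρ g = 1) :
    finrank (ZMod p) (H1 L ρ) ≤ 2 * finrank (ZMod p) ↥(H0 ρ) := by
  have hsm : Smooth L ρ := Smooth.of_forall_eq_one hN hρ
  have hinj := res_injective1 L ρ N hN (Tame_isUnit hidx)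
  have h2 : finrank (ZMod p) (H1 (L.sub N) (Representation.trivial (ZMod p) N (ZMod p))) = 2 := by
    simpa using h.h1 N hN
  have f2 : FiniteDimensional (ZMod p) (H1 (L.sub N) (Representation.trivial (ZMod p) N (ZMod p))) :=
    Module.finite_of_finrank_pos (by rw [h2]; norm_num)
  have f3 : FiniteDimensional (ZMod p)
      (H1 (L.sub N) (Representation.trivial (ZMod p) N ↥(H0 ρ))) :=
    finiteDimensional_H1_trivial _ _
  let E := Tame_ses N ρ hρ
  have hle : LinearMap.range (Pair.res L ρ N).map1 ≤ LinearMap.range (E.iP (L.sub N)).map1 := by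
    rintro _ ⟨x, rfl⟩
    obtain ⟨z, rfl⟩ := H1.mk_surjective _ _ x
    refine (E.exact_i1_π1 (L.sub N) _).1 ?_
    rw [Pair.map1_mk, Pair.map1_mk, H1.mk_eq_zero_iff]
    refine ⟨0, fun m => ?_⟩
    rw [map_zero, sub_zero]
    show (H0 ρ).mkQ ((z : H → X) (m : H)) = 0
    rw [Submodule.mkQ_apply, Submodule.Quotient.mk_eq_zero]
    exact cocycle_mem_H0_of_mem h N hN hidx ρ hρ z.2 m.2
  calc finrank (ZMod p) (H1 L ρ)
      = finrank (ZMod p) ↥(LinearMap.range (Pair.res L ρ N).map1) :=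
        (LinearMap.finrank_range_of_inj hinj).symm
    _ ≤ finrank (ZMod p) ↥(LinearMap.range (E.iP (L.sub N)).map1) := Submodule.finrank_mono hle
    _ ≤ finrank (ZMod p) (H1 (L.sub N) (Representation.trivial (ZMod p) N ↥(H0 ρ))) :=
        LinearMap.finrank_range_le _
    _ = 2 * finrank (ZMod p) ↥(H0 ρ) := by
        rw [finrank_H1_trivial, h2, mul_comm]

/-- `LocalHyp` with trivial `ω` is `SplitHyp`. -/
theorem splitHyp_of_localHyp {ω : H →* (ZMod p)ˣ} {n : ℕ} (h : LocalHyp p L ω n)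
    (hω : ∀ g, ω g = 1) : SplitHyp p L n :=
  ⟨fun W hW => h.h1 W hW (fun g _ => hω g), fun W hW => h.h2 W hW (fun g _ => hω g)⟩

end Fermat.Agent.S56.Loc

end
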