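import Fermat.Agent.S56.Loc.Ur
import Fermat.Agent.S56.Loc.Tame
import Fermat.Agent.S55.B.Trans.LocHyp
import Fermat.Agent.S55.Places.UnramQuot
import Fermat.Agent.S55.Z.TargetL

/-!
# S56 / Loc / Arith1 : arithmetic instances (Frobenius generates `D_q/I_q`; `ω` on `I_q`, `D_q`).
TASK S56/Loc-Arith1

* `procyclicMod_Dq` : for `φ` a Frobenius (`IsFrob q φ`), `ProcyclicMod (Lq q) (I_q in D_q) φ`.
  normal: `Iq_conj_mem`.  gen: `N` open in `↥(Dq q)` containing inertia; `N' := N.map (Dq q).subtype` satisfies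
  `IsOpenIn (Dq q) N'` (S55/Arith/Defs: `(Lall.sub H).IsOpen V ↔ IsOpenIn H (V.map H.subtype)`, the lemma just after `LS_le_Lall`),
  `Dq q ⊓ Iq q ≤ N'`; `UnramQuot.exists_Nur_le (IsOpenIn.refl _) hN' hI` gives `n > 0` with `Dq q ⊓ Nur q n ≤ N'`
  (take `m = n`); `IsFrob.exists_pow_mul_mem_Nur hφ hn hg` gives `k` with `(φ^k)⁻¹ * g ∈ Nur q n` (and it is in `Dq q`).
* `cycloChar_eq_one_of_mem_Iq` : `q ≠ p`: `map_root_of_mem_Iq` (`m = p` coprime to `q`) + `cycloChar_eq_one_of_fixes`.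
* `cycloChar_eq_one_of_mem_Dq` : `p ∣ q - 1`: `map_root_of_mem_Dq` gives `g ζ = ζ ^ (q ^ j)`, and `q ^ j ≡ 1 mod p`, `ζ ^ p = 1`
  (`pow_eq_pow_mod`/`Nat.ModEq.pow`), then `cycloChar_eq_one_of_fixes`.
* `splitHyp_Dq` : `splitHyp_of_localHyp (loc_hyp hp2 q)` with `if q = p then 1 else 0 = 0` (`p ∣ q - 1`, `q` prime ⟹ `q ≠ p`).
-/

set_option autoImplicit false

noncomputable section

namespace Fermat.Agent.S56.Loc

open Fermat.Agent.S55 Fermat.Agent.S55.Places ExtCitation Module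

variable {p : ℕ} [Fact p.Prime] {q : ℕ} [Fact q.Prime]

/-- inertia as a subgroup of the decomposition group. -/
abbrev IqD (q : ℕ) [Fact q.Prime] : Subgroup ↥(Dq q) := (Iq q).subgroupOf (Dq q)

theorem procyclicMod_Dq {φ : GQ} (hφ : IsFrob q φ) :
    ProcyclicMod (Lq q) (IqD q) (⟨φ, hφ.1⟩ : ↥(Dq q)) := by
  refine ⟨⟨fun n hn g => ?_⟩, fun N hN hI g => ?_⟩
  · rw [Subgroup.mem_subgroupOf] at hn ⊢
    exact Iq_conj_mem q g.2 hn
  · have hN' : IsOpenIn (Dq q) (N.map (Dq q).subtype) := isOpen_sub_iff.1 hN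
    have hI' : Dq q ⊓ Iq q ≤ N.map (Dq q).subtype := by
      intro x hx
      exact Subgroup.mem_map.2 ⟨⟨x, hx.1⟩, hI (Subgroup.mem_subgroupOf.2 hx.2), rfl⟩
    obtain ⟨n, hn, hle⟩ := exists_Nur_le (IsOpenIn.refl _) hN' hI'
    obtain ⟨k, hk⟩ := hφ.exists_pow_mul_mem_Nur hn g.2
    refine ⟨k, ?_⟩
    have hD : (φ ^ k)⁻¹ * (g : GQ) ∈ Dq q :=
      (Dq q).mul_mem ((Dq q).inv_mem ((Dq q).pow_mem hφ.1 k)) g.2
    obtain ⟨y, hy, hyx⟩ := Subgroup.mem_map.1 (hle n hn dvd_rfl ⟨hD, hk⟩)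
    have hyeq : y = ((⟨φ, hφ.1⟩ : ↥(Dq q)) ^ k)⁻¹ * g := Subtype.ext hyx
    exact hyeq ▸ hy

theorem cycloChar_eq_one_of_mem_Iq (hqp : q ≠ p) {g : GQ} (hg : g ∈ Iq q) : cycloChar p g = 1 := by
  have hcop : Nat.Coprime p q :=
    (Nat.coprime_primes (Fact.out : p.Prime) (Fact.out : q.Prime)).2 (Ne.symm hqp)
  exact cycloChar_eq_one_of_fixes p g fun ζ hζ => map_root_of_mem_Iq hcop hζ hg

theorem cycloChar_eq_one_of_mem_Dq (hq : p ∣ q - 1) {g : GQ} (hg : g ∈ Dq q) :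
    cycloChar p g = 1 := by
  have hq1 : 1 < q := (Fact.out : q.Prime).one_lt
  have hqp : p ≠ q := by
    rintro rfl
    exact absurd (Nat.le_of_dvd (by omega) hq) (by omega)
  have hcop : Nat.Coprime p q :=
    (Nat.coprime_primes (Fact.out : p.Prime) (Fact.out : q.Prime)).2 hqp
  obtain ⟨j, hj⟩ := map_root_of_mem_Dq hcop hg
  refine cycloChar_eq_one_of_fixes p g fun ζ hζ => ?_
  rw [hj ζ hζ]
  have hmod : q ^ j ≡ 1 [MOD p] := by
    have h1 : q ≡ 1 [MOD p] := ((Nat.modEq_iff_dvd' hq1.le).2 hq).symm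
    simpa using h1.pow j
  have h2 : ζ ^ (q ^ j) = ζ ^ 1 := by
    rw [pow_eq_pow_mod (q ^ j) hζ, pow_eq_pow_mod 1 hζ, hmod]
  rw [h2, pow_one]

theorem splitHyp_Dq (hp2 : p ≠ 2) (hq : p ∣ q - 1) : SplitHyp p (Lq q) 0 := by
  have hq1 : 1 < q := (Fact.out : q.Prime).one_lt
  have hqp : q ≠ p := by
    rintro rfl
    exact absurd (Nat.le_of_dvd (by omega) hq) (by omega)
  have h := loc_hyp (p := p) hp2 q
  rw [if_neg hqp] at h
  exact splitHyp_of_localHyp h fun g => cycloChar_eq_one_of_mem_Dq hq g.2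

end Fermat.Agent.S56.Loc

end
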