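import Fermat.Agent.S56.Defs
import Fermat.Agent.S55.Places.Norm
import Fermat.Prelude.Def_GaloisRep_StrictOrdinary

/-!
# S56 / Loc / Mat : `2 × 2` matrices over the dual numbers; data extracted from the Prelude conditions.
TASK S56/Loc-Mat

`liftMat M z σ = M σ + ε (z σ * M σ)` (entrywise `inl`, `inr`).  `IsClassOf M ρ' z` says that `S53.adicMat ρ' b σ = liftMat M z σ` for a basis `b`.

* `trace_liftMat`, `det_liftMat` : `Matrix.trace_fin_two`, `Matrix.det_fin_two`, `TrivSqZeroExt.ext` (`fst`, `snd` simp lemmas;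
  `det (M + ε z M) = det M + ε (tr z) det M`: expand both sides in the 8 entries, `ring`).
* `smooth_ad0` : `hfin : GaloisFactorsThroughFiniteLevel M` gives `E` f.d. with `M σ = 1` for `σ` fixing `E`;
  `Smooth.of_forall_eq_one (N := E.fixingSubgroup) (Lall_isOpen_iff.2 ⟨E, _, le_rfl⟩)`; `ad0 p M σ = 1` when `M σ = 1` (`M σ⁻¹ = 1` too).
* `unr_data` : `ρ'.ρ σ = 1` ⟹ `adicMat = 1` ⟹ entrywise `fst`: `M σ = 1`, `snd`: `z σ * M σ = 0`.
* `unip_data` : `hU (padicPlace q) (padicPlace_liesOverPrime q) σ hσ : charpoly (ρ'.ρ σ) = (X - 1)^2`; `LinearMap.charpoly_toMatrix`,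
  `Matrix.charpoly_fin_two`; compare the coefficients of `X^1`, `X^0` (`(X-1)^2 = X^2 - 2 X + 1`): `trace = 2`, `det = 1` in `DualNumber k`; take `fst`, `snd`
  (from `det`: `(tr z) det M = 0` is not needed).
-/

set_option autoImplicit false

noncomputable section

namespace Fermat.Agent.S56.Loc

open Fermat.Agent.S55 Fermat.Agent.S55.Places ExtCitation Module Polynomial

variable {k : Type} [Field k]

/-- `M σ + ε (z σ * M σ)`. -/
def liftMat (M : GQ →* M2 k) (z : GQ → M2 k) (σ : GQ) : M2 (DualNumber k) :=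
  Matrix.of fun i j => TrivSqZeroExt.inl (M σ i j) + TrivSqZeroExt.inr ((z σ * M σ) i j)

lemma liftMat_apply (M : GQ →* M2 k) (z : GQ → M2 k) (σ : GQ) (i j : Fin 2) :
    liftMat M z σ i j = TrivSqZeroExt.inl (M σ i j) + TrivSqZeroExt.inr ((z σ * M σ) i j) := rfl

lemma isClassOf_iff (M : GQ →* M2 k) (ρ' : GaloisRepAdic (DualNumber k)) (z : GQ → M2 k) :
    IsClassOf M ρ' z ↔ ∃ b : Basis (Fin 2) (DualNumber k) ρ'.V, ∀ σ, S53.adicMat ρ' b σ = liftMat M z σ := by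
  constructor
  · rintro ⟨b, h⟩
    exact ⟨b, fun σ => Matrix.ext fun i j => h σ i j⟩
  · rintro ⟨b, h⟩
    exact ⟨b, fun σ i j => by rw [h σ]; rfl⟩

lemma trace_liftMat (M : GQ →* M2 k) (z : GQ → M2 k) (σ : GQ) :
    (liftMat M z σ).trace = TrivSqZeroExt.inl (M σ).trace + TrivSqZeroExt.inr (z σ * M σ).trace := by
  rw [Matrix.trace_fin_two, Matrix.trace_fin_two, Matrix.trace_fin_two, liftMat_apply,
    liftMat_apply, TrivSqZeroExt.inl_add, TrivSqZeroExt.inr_add]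
  abel

lemma det_liftMat (M : GQ →* M2 k) (z : GQ → M2 k) (σ : GQ) :
    (liftMat M z σ).det =
      TrivSqZeroExt.inl (M σ).det + TrivSqZeroExt.inr ((z σ).trace * (M σ).det) := by
  rw [Matrix.det_fin_two, Matrix.det_fin_two, Matrix.trace_fin_two]
  simp only [liftMat_apply, Matrix.mul_apply, Fin.sum_univ_two]
  apply TrivSqZeroExt.ext
  · simp
  · simp
    ring

theorem Mat_isOpen_ker (M : GQ →* M2 k) (hfin : GaloisFactorsThroughFiniteLevel M) :
    ∃ U : Subgroup GQ, Lall.IsOpen U ∧ U.Normal ∧ ∀ σ ∈ U, M σ = 1 := by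
  obtain ⟨E, hE, h⟩ := hfin
  obtain ⟨N, hN, hNE, hNn, -⟩ := Lall.exists_normal (Lall_isOpen_iff.2 ⟨E, hE, le_rfl⟩)
  exact ⟨N, hN, hNn, fun σ hσ => h σ fun x hx =>
    (IntermediateField.mem_fixingSubgroup_iff E σ).1 (hNE hσ) x hx⟩

theorem smooth_ad0 (p : ℕ) [Fact p.Prime] [Algebra (ZMod p) k] (M : GQ →* M2 k)
    (hfin : GaloisFactorsThroughFiniteLevel M) : Smooth Lall (ad0 p M) := by
  obtain ⟨U, hU, -, h⟩ := Mat_isOpen_ker M hfin
  refine ⟨fun X => ⟨U, hU, fun σ hσ => ?_⟩⟩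
  apply Subtype.ext
  rw [ad0_apply_coe, h σ hσ, h σ⁻¹ (U.inv_mem hσ), one_mul, mul_one]

theorem isOpen_ker_of_fin (M : GQ →* M2 k) (hfin : GaloisFactorsThroughFiniteLevel M) :
    ∃ U : Subgroup GQ, Lall.IsOpen U ∧ U.Normal ∧ ∀ σ ∈ U, M σ = 1 := by
  exact Mat_isOpen_ker M hfin

theorem unr_data (M : GQ →* M2 k) (ρ' : GaloisRepAdic (DualNumber k)) (z : GQ → M2 k)
    (h : IsClassOf M ρ' z) (q : ℕ) [Fact q.Prime] (hU : ρ'.IsUnramifiedAt q) {σ : GQ}
    (hσ : σ ∈ Iq q) : M σ = 1 ∧ z σ = 0 := by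
  obtain ⟨b, hb⟩ := h
  have h1 : ρ'.ρ σ = 1 := hU (padicPlace q) (padicPlace_liesOverPrime q) σ hσ
  have h2 : S53.adicMat ρ' b σ = 1 := by
    rw [S53.adicMat_apply, h1]
    exact LinearMap.toMatrix_one b
  have hM : M σ = 1 := by
    ext i j
    have := congrArg TrivSqZeroExt.fst (hb σ i j)
    rw [h2] at this
    simp only [TrivSqZeroExt.fst_add, TrivSqZeroExt.fst_inl, TrivSqZeroExt.fst_inr, add_zero] at this
    rw [← this, Matrix.one_apply, Matrix.one_apply]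
    split_ifs <;> simp
  refine ⟨hM, ?_⟩
  ext i j
  have := congrArg TrivSqZeroExt.snd (hb σ i j)
  rw [h2, hM, mul_one] at this
  simp only [TrivSqZeroExt.snd_add, TrivSqZeroExt.snd_inl, TrivSqZeroExt.snd_inr, zero_add] at this
  rw [← this, Matrix.one_apply, Matrix.zero_apply]
  split_ifs <;> simp

lemma Mat_coeffs {R : Type*} [CommRing R] {a b a' b' : R}
    (h : (X ^ 2 - C a * X + C b : R[X]) = X ^ 2 - C a' * X + C b') : a = a' ∧ b = b' := by
  have h1 := congrArg (fun P : R[X] => P.coeff 1) h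
  have h0 := congrArg (fun P : R[X] => P.coeff 0) h
  simp [coeff_X, coeff_C] at h1 h0
  exact ⟨h1, h0⟩

theorem unip_data (M : GQ →* M2 k) (ρ' : GaloisRepAdic (DualNumber k)) (z : GQ → M2 k)
    (h : IsClassOf M ρ' z) (q : ℕ) [Fact q.Prime] (hU : ρ'.IsUnipotentOnInertiaAt q) {σ : GQ}
    (hσ : σ ∈ Iq q) : (M σ).trace = 2 ∧ (M σ).det = 1 ∧ (z σ * M σ).trace = 0 := by
  obtain ⟨b, hb⟩ := (isClassOf_iff M ρ' z).1 h
  have h1 : LinearMap.charpoly (ρ'.ρ σ) = (X - 1) ^ 2 :=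
    hU (padicPlace q) (padicPlace_liesOverPrime q) σ hσ
  have h2 : (liftMat M z σ).charpoly = (X - 1) ^ 2 := by
    rw [← hb σ, S53.adicMat_apply, LinearMap.charpoly_toMatrix, h1]
  rw [Matrix.charpoly_fin_two] at h2
  have h3 : ((X - 1) ^ 2 : (DualNumber k)[X]) = X ^ 2 - C 2 * X + C 1 := by
    simp only [map_ofNat, map_one]
    ring
  rw [h3] at h2
  obtain ⟨ht, hd⟩ := Mat_coeffs h2
  rw [trace_liftMat] at ht
  rw [det_liftMat] at hd
  have ht1 := congrArg TrivSqZeroExt.fst ht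
  have ht2 := congrArg TrivSqZeroExt.snd ht
  have hd1 := congrArg TrivSqZeroExt.fst hd
  simp at ht1 ht2 hd1
  exact ⟨ht1, hd1, ht2⟩

end Fermat.Agent.S56.Loc

end
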