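import Fermat.Agent.S56.Loc.TWMat
import Fermat.Agent.S56.Loc.Mat
import Fermat.Agent.S56.Loc.Arith1

/-!
# S56 / Loc / TWMain : `h^1(D_q, ad⁰) ≤ h^0(D_q, ad⁰) + f` at a Taylor-Wiles prime.      TASK S56/Loc-TWMain

* `exists_isFrob_isFrobeniusAt` : copy the proof of `Places.exists_isFrob` (S55/Places/Residue.lean): the `φ` given by `S54.exists_isFrobeniusAt` is both.
* `tw_local'` : `ρ := rsub (ad0 p M) (Dq q)`, `s := ⟨φ, hφ.1⟩`, `hP := procyclicMod_Dq hφ`.
  `MD : ↥(Dq q) →* (M2 k)ˣ := (M.comp (Dq q).subtype).toHomUnits`, `N := MD.ker` (normal).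
  - `N` is open in `Lq q`: `isOpen_ker_of_fin M hfin` gives `U` open with `M = 1` on `U`; `U.subgroupOf (Dq q) ≤ N` (`Levels.IsOpen.subgroupOf`, `isOpen_mono`).
  - `IqD q ≤ N` by `hur`.
  - `¬ p ∣ N.index`: `N.index = Nat.card MD.range` (`Subgroup.index_ker`); by `hP.exists_pow_eq MD _ _ g` the range is `Subgroup.zpowers (MD s)`,
    `Nat.card (zpowers x) = orderOf x` (`Nat.card_zpowers`), `orderOf (MD s) ∣ Nat.card k - 1` (`orderOf_dvd_of_pow_eq_one`, `pow_card_sub_one_eq_one`, `Units.ext`; `det (M φ) ≠ 0` since `M φ * M φ⁻¹ = 1`);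
    `Nat.card k = p ^ f` (`Module.natCard_eq_pow_finrank (K := ZMod p)`, `Nat.card_zmod`; `f ≥ 1`), so `p ∤ p ^ f - 1`.
  - `N` acts trivially: `M σ = 1 ⟹ ad0 p M σ = 1`.
  - `finrank_H1_le_two_mul (splitHyp_Dq hp2 hq1) N hN hidx ρ hρ : h1 ≤ 2 * h0`.
  - `h0 ≤ f`: `H0 ρ ≤ centAd0 p (M φ)` as submodules of `Ad0 p k` (`M φ m M φ⁻¹ = m ⟹ M φ m = m M φ`), `Submodule.finrank_mono`, `finrank_centralizer_le`.
-/

set_option autoImplicit false

noncomputable section

namespace Fermat.Agent.S56.Loc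

open Fermat.Agent.S55 Fermat.Agent.S55.Places ExtCitation Module Polynomial

variable {p : ℕ} [Fact p.Prime] {k : Type} [Field k] [Finite k] [Algebra (ZMod p) k]

theorem exists_isFrob_isFrobeniusAt (q : ℕ) [Fact q.Prime] :
    ∃ φ : GQ, IsFrob q φ ∧ (padicPlace q).IsFrobeniusAt φ q := by
  obtain ⟨φ, hφ, h⟩ := Fermat.Agent.S54.exists_isFrobeniusAt q Fact.out (padicPlace q)
    (padicPlace_liesOverPrime q)
  refine ⟨φ, ⟨hφ, fun x hx => ?_⟩, ⟨hφ, h⟩⟩
  have h1 := h (residueRes q x hx)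
  have h2 := residueRes_smul q (g := φ) hφ hx
  rw [h2, ← residueRes_pow, residueRes_eq_iff] at h1
  exact h1

theorem tw_local' (hp2 : p ≠ 2) (M : GQ →* M2 k) (hfin : GaloisFactorsThroughFiniteLevel M)
    (q : ℕ) [Fact q.Prime] (hq1 : p ∣ q - 1) (hur : ∀ σ ∈ Iq q, M σ = 1)
    {φ : GQ} (hφ : IsFrob q φ) {α β : k} (hαβ : α ≠ β)
    (hchar : (M φ).charpoly = (X - C α) * (X - C β)) :
    finrank (ZMod p) (H1 (Lq q) (rsub (ad0 p M) (Dq q))) ≤
      finrank (ZMod p) ↥(H0 (rsub (ad0 p M) (Dq q))) + finrank (ZMod p) k := by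
  classical
  have hP := procyclicMod_Dq hφ
  let MD : ↥(Dq q) →* (M2 k)ˣ := (M.comp (Dq q).subtype).toHomUnits
  have hMD : ∀ g : ↥(Dq q), ((MD g : (M2 k)ˣ) : M2 k) = M (g : GQ) := fun g => rfl
  have hNmem : ∀ g : ↥(Dq q), g ∈ MD.ker ↔ M (g : GQ) = 1 := by
    intro g
    rw [MonoidHom.mem_ker, ← hMD, Units.ext_iff, Units.val_one]
  have hN : (Lq q).IsOpen MD.ker := by
    obtain ⟨U, hU, -, hU1⟩ := isOpen_ker_of_fin M hfin
    exact (Lq q).isOpen_mono (hU.subgroupOf _) (fun g hg => (hNmem g).2 (hU1 _ hg))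
  have hI : IqD q ≤ MD.ker := fun g hg => (hNmem g).2 (hur _ hg)
  have hdet : (M φ).det ≠ 0 := by
    intro h0
    have h1 := congrArg Matrix.det (map_mul_inv M φ)
    rw [Matrix.det_mul, h0, zero_mul, Matrix.det_one] at h1
    exact zero_ne_one h1
  have hidx : ¬ p ∣ MD.ker.index := by
    rw [Subgroup.index_ker]
    have hrange : MD.range = Subgroup.zpowers (MD ⟨φ, hφ.1⟩) := by
      apply le_antisymm
      · rintro _ ⟨g, rfl⟩
        obtain ⟨n, hn⟩ := hP.exists_pow_eq MD hN hI g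
        rw [hn]
        exact Subgroup.npow_mem_zpowers _ _
      · rw [Subgroup.zpowers_le]
        exact ⟨_, rfl⟩
    rw [hrange, Nat.card_zpowers]
    have hord : orderOf (MD ⟨φ, hφ.1⟩) ∣ Nat.card k - 1 := by
      apply orderOf_dvd_of_pow_eq_one
      apply Units.ext
      rw [Units.val_pow_eq_pow_val, Units.val_one, hMD]
      exact pow_card_sub_one_eq_one (M φ) hαβ hchar hdet
    have hcard : Nat.card k = p ^ finrank (ZMod p) k := by
      rw [Module.natCard_eq_pow_finrank (K := ZMod p), Nat.card_zmod]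
    have hf : 0 < finrank (ZMod p) k := Module.finrank_pos
    intro hp
    have h1 : p ∣ Nat.card k - 1 := hp.trans hord
    have h2 : p ∣ Nat.card k := by
      rw [hcard]
      exact dvd_pow_self p hf.ne'
    have h3 : 0 < Nat.card k := Nat.card_pos
    have h4 : p ∣ 1 := by
      have := (Nat.dvd_sub h2 h1)
      rwa [Nat.sub_sub_self h3] at this
    exact (Fact.out : p.Prime).one_lt.ne' (Nat.dvd_one.1 h4)
  have hρ : ∀ g ∈ MD.ker, rsub (ad0 p M) (Dq q) g = 1 := by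
    intro g hg
    have h1 : M (g : GQ) = 1 := (hNmem g).1 hg
    have h2 : M (g : GQ)⁻¹ = 1 := by
      have := map_mul_inv M (g : GQ)
      rwa [h1, one_mul] at this
    ext X : 2
    change ((ad0 p M (g : GQ) X : Ad0 p k) : M2 k) = X
    rw [ad0_apply_coe, h1, h2, one_mul, mul_one]
  have hmain := finrank_H1_le_two_mul (splitHyp_Dq hp2 hq1) MD.ker hN hidx
    (rsub (ad0 p M) (Dq q)) hρ
  have hle : H0 (rsub (ad0 p M) (Dq q)) ≤ centAd0 p (M φ) := by
    intro m hm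
    have h1 : rsub (ad0 p M) (Dq q) ⟨φ, hφ.1⟩ m = m := hm ⟨φ, hφ.1⟩
    have h2 : M φ * (m : M2 k) * M φ⁻¹ = (m : M2 k) := congrArg Subtype.val h1
    change M φ * (m : M2 k) = (m : M2 k) * M φ
    conv_rhs => rw [← h2, mul_assoc, map_inv_mul, mul_one]
  have h0 : finrank (ZMod p) ↥(H0 (rsub (ad0 p M) (Dq q))) ≤ finrank (ZMod p) k :=
    (Submodule.finrank_mono hle).trans (finrank_centralizer_le (M φ) hαβ hchar)
  omega

end Fermat.Agent.S56.Loc

end
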