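import Fermat.Agent.S56.Loc.UrMain
import Fermat.Agent.S56.Loc.OrdMain
import Fermat.Agent.S56.Loc.TWMain

/-!
# S56 / Loc / Main : the five exports of module LOC, in the shape of S56/Top/TargetLoc.lean.
`Loc.ur_finrank`, `Loc.unip_le_ur`, `Loc.unr_le_ur` (UrMain), `Loc.ord_finrank` (OrdMain), `Loc.tw_local` (here).
-/

set_option autoImplicit false

noncomputable section

namespace Fermat.Agent.S56.Loc

open Fermat.Agent.S55 Fermat.Agent.S55.Places ExtCitation Module Polynomial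

variable {p : ℕ} [Fact p.Prime] {k : Type} [Field k] [Finite k] [Algebra (ZMod p) k]

theorem tw_local (hp2 : p ≠ 2) (M : GQ →* M2 k) (hM : ResHyp p M) (q : Nat.Primes)
    (hq1 : p ∣ (q : ℕ) - 1) (hur : ∀ σ ∈ IqP q, M σ = 1)
    (hfr : ∀ P : ValuationSubring Qbar, P.LiesOverPrime (q : ℕ) → ∀ φ : GQ,
      P.IsFrobeniusAt φ (q : ℕ) → ∃ α β : k, α ≠ β ∧ (M φ).charpoly = (X - C α) * (X - C β)) :
    finrank (ZMod p) (H1 (Lall.sub (DqP q)) (rsub (ad0 p M) (DqP q))) ≤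
      finrank (ZMod p) ↥(H0 (rsub (ad0 p M) (DqP q))) + finrank (ZMod p) k := by
  haveI : Fact (q : ℕ).Prime := ⟨q.2⟩
  obtain ⟨φ, hφ, hφ'⟩ := exists_isFrob_isFrobeniusAt (q : ℕ)
  obtain ⟨α, β, hαβ, hchar⟩ := hfr (padicPlace (q : ℕ)) (padicPlace_liesOverPrime (q : ℕ)) φ hφ'
  exact tw_local' hp2 M hM.fin (q : ℕ) hq1 hur hφ hαβ hchar

end Fermat.Agent.S56.Loc

end
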