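import Fermat.Agent.S56.Loc.UnipCore

/-!
# S56 / Loc / UnipConj : remove the normalisation of `unip_core`.     TASK S56/Loc-UnipConj   (Mathlib only)

* `exists_conj_unipotent` : `g : Matrix (Fin 2) (Fin 2) k`, `tr g = 2`, `det g = 1`, `g ≠ 1` ⟹ `∃ P Q, P * Q = 1 ∧ Q * P = 1 ∧ P * g * Q = !![1,1;0,1]`.
  [`n := g - 1`, `n * n = 0` (Cayley-Hamilton for `2 × 2`: entries + `ring`/`linear_combination`), `n ≠ 0`: some column `v := e_j` has `n v ≠ 0`;
   `Q := ` the matrix with columns `(n v, v)`, `det Q ≠ 0` (if `n v = c v` then `n (n v) = c^2 v = 0`, so `c = 0`...; easier: case split on the entries: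
   `g = !![a,b;c,d]`; if `c ≠ 0` take `Q = !![a-1, 1; c, 0]`; else `a = d = 1`, `b ≠ 0`, `Q = !![b,0;0,1]`), `P := Q⁻¹`
   (`Matrix.mul_nonsing_inv`, `Matrix.nonsing_inv_mul`, `isUnit_iff_ne_zero`); check `g * Q = Q * !![1,1;0,1]`.]
* `unip_general` : apply `unip_core` to `M' σ := P * M σ * Q` (a `MonoidHom`), `z' σ := P * z σ * Q`; traces and determinants are invariant
  (`Matrix.trace_mul_cycle`, `Matrix.det_mul`); `m := Q * m' * P`.
-/

set_option autoImplicit false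

namespace Fermat.Agent.S56.Loc

open Matrix

variable {p : ℕ} [Fact p.Prime] {k : Type} [Field k] [Algebra (ZMod p) k]

theorem exists_conj_unipotent (g : Matrix (Fin 2) (Fin 2) k) (htr : g.trace = 2) (hdet : g.det = 1)
    (hg : g ≠ 1) : ∃ P Q : Matrix (Fin 2) (Fin 2) k, P * Q = 1 ∧ Q * P = 1 ∧
      P * g * Q = !![1, 1; 0, 1] := by
  have hg' := Matrix.eta_fin_two g
  rw [Matrix.trace_fin_two] at htr
  rw [Matrix.det_fin_two] at hdet
  set a := g 0 0
  set b := g 0 1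
  set c := g 1 0
  set d := g 1 1
  have hd : d = 2 - a := by linear_combination htr
  by_cases hc : c = 0
  · have ha : a = 1 := by
      have h1 : (a - 1) ^ 2 = 0 := by
        rw [hd, hc] at hdet
        linear_combination -hdet
      exact sub_eq_zero.mp ((pow_eq_zero_iff (two_ne_zero)).mp h1)
    have hd1 : d = 1 := by rw [hd, ha]; ring
    have hb : b ≠ 0 := by
      intro hb
      apply hg
      rw [hg', ha, hb, hc, hd1, Matrix.one_fin_two]
    refine ⟨!![b⁻¹, 0; 0, 1], !![b, 0; 0, 1], ?_, ?_, ?_⟩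
    · rw [Matrix.mul_fin_two, Matrix.one_fin_two]
      simp [hb]
    · rw [Matrix.mul_fin_two, Matrix.one_fin_two]
      simp [hb]
    · rw [hg', ha, hc, hd1, Matrix.mul_fin_two, Matrix.mul_fin_two]
      simp [hb]
  · have hbc : b * c = -(a - 1) ^ 2 := by
      rw [hd] at hdet
      linear_combination -hdet
    refine ⟨!![0, c⁻¹; 1, (1 - a) * c⁻¹], !![a - 1, 1; c, 0], ?_, ?_, ?_⟩
    · rw [Matrix.mul_fin_two, Matrix.one_fin_two]
      have e1 : 0 * (a - 1) + c⁻¹ * c = 1 := by field_simp; ring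
      have e2 : 0 * 1 + c⁻¹ * 0 = (0 : k) := by ring
      have e3 : 1 * (a - 1) + (1 - a) * c⁻¹ * c = 0 := by field_simp; ring
      have e4 : 1 * 1 + (1 - a) * c⁻¹ * 0 = (1 : k) := by ring
      rw [e1, e2, e3, e4]
    · rw [Matrix.mul_fin_two, Matrix.one_fin_two]
      have e1 : (a - 1) * 0 + 1 * 1 = (1 : k) := by ring
      have e2 : (a - 1) * c⁻¹ + 1 * ((1 - a) * c⁻¹) = 0 := by ring
      have e3 : c * 0 + 0 * 1 = (0 : k) := by ring
      have e4 : c * c⁻¹ + 0 * ((1 - a) * c⁻¹) = 1 := by field_simp; ring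
      rw [e1, e2, e3, e4]
    · rw [hg', Matrix.mul_fin_two, Matrix.mul_fin_two]
      have e1 : (0 * a + c⁻¹ * c) * (a - 1) + (0 * b + c⁻¹ * d) * c = 1 := by
        rw [hd]; field_simp; ring
      have e2 : (0 * a + c⁻¹ * c) * 1 + (0 * b + c⁻¹ * d) * 0 = 1 := by
        field_simp; ring
      have e3 : (1 * a + (1 - a) * c⁻¹ * c) * (a - 1) + (1 * b + (1 - a) * c⁻¹ * d) * c = 0 := by
        have : (1 - a) * c⁻¹ * c = 1 - a := by field_simp
        have h2 : (1 - a) * c⁻¹ * d * c = (1 - a) * d := by field_simp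
        rw [this]
        linear_combination hbc + h2 + (1 - a) * hd
      have e4 : (1 * a + (1 - a) * c⁻¹ * c) * 1 + (1 * b + (1 - a) * c⁻¹ * d) * 0 = 1 := by
        have : (1 - a) * c⁻¹ * c = 1 - a := by field_simp
        rw [this]; ring
      rw [e1, e2, e3, e4]

theorem unip_general {G : Type} [Group G] (I U₀ : Subgroup G) (M : G →* Matrix (Fin 2) (Fin 2) k)
    (z : G → Matrix (Fin 2) (Fin 2) k) (h2 : (2 : k) ≠ 0)
    (hz : ∀ σ τ, z (σ * τ) = M σ * z τ * M σ⁻¹ + z σ)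
    (htr : ∀ σ, (z σ).trace = 0)
    (hU₀ : ∀ σ ∈ U₀, M σ = 1 ∧ z σ = 0)
    (hgen : ∃ t ∈ I, ∃ χ : G → ZMod p, ∀ y : G → k, (∀ a ∈ I, ∀ b ∈ I, y (a * b) = y a + y b) →
      (∀ a ∈ I, a ∈ U₀ → y a = 0) → ∀ a ∈ I, y a = χ a • y t)
    (hram : ∃ σ₀ ∈ I, M σ₀ ≠ 1)
    (hM : ∀ σ ∈ I, (M σ).trace = 2 ∧ (M σ).det = 1) (hzM : ∀ σ ∈ I, (z σ * M σ).trace = 0) :
    ∃ m : Matrix (Fin 2) (Fin 2) k, m.trace = 0 ∧ ∀ σ ∈ I, z σ = M σ * m * M σ⁻¹ - m := by
  obtain ⟨σ₀, hσ₀, hne⟩ := hram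
  obtain ⟨P, Q, hPQ, hQP, hconj⟩ := exists_conj_unipotent (M σ₀) (hM σ₀ hσ₀).1 (hM σ₀ hσ₀).2 hne
  have hQP' : ∀ X : Matrix (Fin 2) (Fin 2) k, Q * (P * X) = X := fun X => by
    rw [← mul_assoc, hQP, one_mul]
  have hPQ' : ∀ X : Matrix (Fin 2) (Fin 2) k, P * (Q * X) = X := fun X => by
    rw [← mul_assoc, hPQ, one_mul]
  have htrc : ∀ X : Matrix (Fin 2) (Fin 2) k, (P * X * Q).trace = X.trace := fun X => by
    rw [Matrix.trace_mul_cycle, hQP, one_mul]
  have htrc' : ∀ X : Matrix (Fin 2) (Fin 2) k, (Q * X * P).trace = X.trace := fun X => by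
    rw [Matrix.trace_mul_cycle, hPQ, one_mul]
  have hdetc : ∀ X : Matrix (Fin 2) (Fin 2) k, (P * X * Q).det = X.det := fun X => by
    have h1 : P.det * Q.det = 1 := by rw [← Matrix.det_mul, hPQ, Matrix.det_one]
    rw [Matrix.det_mul, Matrix.det_mul]
    linear_combination X.det * h1
  let M' : G →* Matrix (Fin 2) (Fin 2) k :=
    { toFun := fun σ => P * M σ * Q
      map_one' := by rw [map_one, mul_one, hPQ]
      map_mul' := fun σ τ => by
        rw [map_mul]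
        simp only [mul_assoc, hQP'] }
  have hM'a : ∀ σ, M' σ = P * M σ * Q := fun _ => rfl
  obtain ⟨m', hm'tr, hm'⟩ := unip_core (p := p) I U₀ M' (fun σ => P * z σ * Q) h2
    (fun σ τ => by
      simp only [hM'a, hz σ τ, mul_add, add_mul, mul_assoc, hQP'])
    (fun σ => by rw [htrc, htr])
    (fun σ hσ => by
      rw [hM'a, (hU₀ σ hσ).1, (hU₀ σ hσ).2, mul_one, hPQ, mul_zero, zero_mul]
      exact ⟨rfl, rfl⟩)
    hgen σ₀ hσ₀ hconj
    (fun σ hσ => by rw [hM'a, htrc, hdetc]; exact hM σ hσ)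
    (fun σ hσ => by
      have e : P * z σ * Q * M' σ = P * (z σ * M σ) * Q := by
        simp only [hM'a, mul_assoc, hQP']
      rw [e, htrc]
      exact hzM σ hσ)
  refine ⟨Q * m' * P, by rw [htrc', hm'tr], fun σ hσ => ?_⟩
  have h1 := congrArg (fun X => Q * X * P) (hm' σ hσ)
  simp only [hM'a, mul_sub, sub_mul, mul_assoc, hQP'] at h1
  have hQPr : ∀ X : Matrix (Fin 2) (Fin 2) k, X * (Q * P) = X := fun X => by rw [hQP, mul_one]
  simp only [hQPr] at h1
  rw [h1]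
  simp only [mul_assoc]

end Fermat.Agent.S56.Loc
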