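import Fermat.Agent.S56.Loc.Arith2
import Fermat.Agent.S56.Loc.Mat
import Fermat.Agent.S56.Loc.UnipConj

/-!
# S56 / Loc / UrMain : (U0), (U1), (U2) in the shape of S56/Top/TargetLoc.lean.        TASK S56/Loc-UrMain

Everywhere: `haveI : Fact (q : ℕ).Prime := ⟨q.2⟩`; `DqP q = Dq (q : ℕ)` and `IqP q = Iq (q : ℕ)` hold by `rfl` (unfold `DqP`, `IqP`).
* `Lur_eq_H1ur` : `Lur q ρ = H1ur (Lq q) (rsub ρ (Dq q)) (IqD q)`.  `≤`: `mem_H1ur_mk_iff` with `m = 0`.  `≥`: `x = H1.mk z` (`H1.mk_surjective`), `mem_H1ur_mk_iff` gives `m`;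
  `z' := z - ⟨d0 _ m, B1_le_Z1 ⟨m, rfl⟩⟩ ∈ Zur q ρ` and `H1.mk z' = H1.mk z` (`H1.mk_eq_zero_iff`).
* `ur_finrank` : `Lur_eq_H1ur` + `finrank_H1ur_le (procyclicMod_Dq hφ)` (`exists_isFrob`).
* `mk_res_mem_Lur` : KEY GLUE: for `z : Z1 Lall ρ` and `m : X` with `z σ = ρ σ m - m` for all `σ ∈ IqP q`: `(Pair.res Lall ρ (DqP q)).map1 (H1.mk Lall ρ z) ∈ Lur q ρ`
  (`Pair.map1_mk`, then as above).
* `unr_le_ur` : `Submodule.span_le`; generator `(ρ', z)`: `unr_data` gives `z σ = 0` on inertia; `mk_res_mem_Lur` with `m = 0`.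
* `unip_le_ur` : generator `(ρ', z)`, `zz σ := ((z σ : Ad0 p k) : M2 k)`.  `unip_general (p := p) (Iq q) U₀ M zz`:
  `h2`: `(2 : k) ≠ 0` as `k` has characteristic `p ≠ 2` (`CharP k p` via `algebraMap (ZMod p) k`; e.g. `(2 : k) = algebraMap _ _ 2`, injective, `(2 : ZMod p) ≠ 0`);
  `hz`: `(mem_Z1.1 z.2).1` + `ad0_apply_coe`;  `htr`: `(mem_Ad0 p _).1 (z σ).2`;
  `U₀ := U₁ ⊓ U₂`, `U₁` from the level-ness of `z` (`z s = z (1 * s) = z 1 = 0`, `Z1.map_one`), `U₂` from `isOpen_ker_of_fin M hM.fin`;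
  `hgen`: `exists_tame_generator_Iq hp2 hqp` specialised to `Y = k`;  `hM`, `hzM`: `unip_data`.
  Then `mk_res_mem_Lur` with `m := ⟨m, (mem_Ad0 p _).2 hm0⟩` (`Subtype.ext`, `ad0_apply_coe`).
-/

set_option autoImplicit false

noncomputable section

namespace Fermat.Agent.S56.Loc

open Fermat.Agent.S55 Fermat.Agent.S55.Places ExtCitation Module Polynomial

variable {p : ℕ} [Fact p.Prime]

section
variable {X : Type} [AddCommGroup X] [Module (ZMod p) X]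

theorem mk_res_mem_Lur (q : Nat.Primes) (ρ : Representation (ZMod p) GQ X) [Smooth Lall ρ]
    (z : ↥(Z1 Lall ρ)) (m : X) (h : ∀ σ ∈ IqP q, (z : GQ → X) σ = ρ σ m - m) :
    (Pair.res Lall ρ (DqP q)).map1 (H1.mk Lall ρ z) ∈ Lur q ρ := by
  rw [Pair.map1_mk]
  let dm : ↥(Z1 (Lall.sub (DqP q)) (rsub ρ (DqP q))) :=
    ⟨d0 (rsub ρ (DqP q)) m, B1_le_Z1 (L := Lall.sub (DqP q)) ⟨m, rfl⟩⟩
  refine ⟨(Pair.res Lall ρ (DqP q)).z1 z - dm, ?_, ?_⟩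
  · intro σ hσ
    show (z : GQ → X) σ - (ρ σ m - m) = 0
    rw [h σ hσ, sub_self]
  · rw [map_sub]
    have : H1.mk (Lall.sub (DqP q)) (rsub ρ (DqP q)) dm = 0 :=
      (H1.mk_eq_zero_iff dm).2 ⟨m, fun g => rfl⟩
    rw [this, sub_zero]

theorem UrMain_Lur_eq_H1ur (q : Nat.Primes) (ρ : Representation (ZMod p) GQ X) [Smooth Lall ρ] :
    haveI : Fact (q : ℕ).Prime := ⟨q.2⟩
    Lur q ρ = H1ur (Lq (q : ℕ)) (rsub ρ (Dq (q : ℕ))) (IqD (q : ℕ)) := by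
  haveI : Fact (q : ℕ).Prime := ⟨q.2⟩
  apply le_antisymm
  · rintro _ ⟨z, hz, rfl⟩
    refine (mem_H1ur_mk_iff (Lq (q : ℕ)) (rsub ρ (Dq (q : ℕ))) (IqD (q : ℕ)) z).2 ⟨0, fun i hi => ?_⟩
    rw [map_zero, sub_zero]
    exact hz i (Subgroup.mem_subgroupOf.1 hi)
  · intro x hx
    obtain ⟨z, rfl⟩ := H1.mk_surjective (Lq (q : ℕ)) (rsub ρ (Dq (q : ℕ))) x
    obtain ⟨m, hm⟩ := (mem_H1ur_mk_iff (Lq (q : ℕ)) (rsub ρ (Dq (q : ℕ))) (IqD (q : ℕ)) z).1 hx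
    let dm : ↥(Z1 (Lq (q : ℕ)) (rsub ρ (Dq (q : ℕ)))) :=
      ⟨d0 (rsub ρ (Dq (q : ℕ))) m, B1_le_Z1 (L := Lq (q : ℕ)) ⟨m, rfl⟩⟩
    refine ⟨z - dm, ?_, ?_⟩
    · intro σ hσ
      show (z : ↥(Dq (q : ℕ)) → X) σ - (ρ σ m - m) = 0
      rw [hm σ (Subgroup.mem_subgroupOf.2 hσ)]
      exact sub_self _
    · have h0 : H1.mk (Lq (q : ℕ)) (rsub ρ (Dq (q : ℕ))) dm = 0 :=
        (H1.mk_eq_zero_iff dm).2 ⟨m, fun g => rfl⟩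
      show H1.mk (Lq (q : ℕ)) (rsub ρ (Dq (q : ℕ))) (z - dm) = _
      rw [map_sub, h0, sub_zero]

theorem ur_finrank (q : Nat.Primes) [FiniteDimensional (ZMod p) X]
    (ρ : Representation (ZMod p) GQ X) [Smooth Lall ρ] :
    finrank (ZMod p) ↥(Lur q ρ) ≤ finrank (ZMod p) ↥(H0 (rsub ρ (DqP q))) := by
  haveI : Fact (q : ℕ).Prime := ⟨q.2⟩
  obtain ⟨φ, hφ⟩ := exists_isFrob (q : ℕ)
  rw [UrMain_Lur_eq_H1ur q ρ]
  exact finrank_H1ur_le (procyclicMod_Dq hφ) (rsub ρ (Dq (q : ℕ)))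

end

variable {k : Type} [Field k] [Finite k] [Algebra (ZMod p) k]

theorem UrMain_two_ne_zero (hp2 : p ≠ 2) : (2 : k) ≠ 0 := by
  have h1 : (2 : ZMod p) ≠ 0 := by
    intro h
    have h2 : ((2 : ℕ) : ZMod p) = 0 := by exact_mod_cast h
    rw [ZMod.natCast_eq_zero_iff] at h2
    exact hp2 ((Nat.prime_dvd_prime_iff_eq Fact.out Nat.prime_two).1 h2)
  have h3 : (2 : k) = algebraMap (ZMod p) k 2 := by rw [map_ofNat]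
  rw [h3]
  exact (map_ne_zero_iff _ (algebraMap (ZMod p) k).injective).2 h1

theorem unip_le_ur (hp2 : p ≠ 2) (M : GQ →* M2 k) (hM : ResHyp p M) (q : Nat.Primes)
    (hqp : (q : ℕ) ≠ p) (hram : ∃ σ ∈ IqP q, M σ ≠ 1) :
    Lcond p M (fun ρ' => ρ'.DetIsCyclotomic p ∧ ρ'.IsUnipotentOnInertiaAt (q : ℕ)) q ≤
      Lur q (ad0 p M) := by
  haveI : Fact (q : ℕ).Prime := ⟨q.2⟩
  haveI := smooth_ad0 p M hM.fin
  rw [Lcond, Submodule.span_le]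
  rintro _ ⟨ρ', z, ⟨-, hU⟩, hcl, rfl⟩
  obtain ⟨U₁, hU₁, hz₁⟩ := (mem_Z1.1 z.2).2
  obtain ⟨U₂, hU₂, -, hM₂⟩ := isOpen_ker_of_fin M hM.fin
  obtain ⟨t, ht, χ, hχ⟩ := exists_tame_generator_Iq (p := p) (q := (q : ℕ)) hp2 hqp
  obtain ⟨m, hm0, hm⟩ := unip_general (p := p) (Iq (q : ℕ)) (U₁ ⊓ U₂) M
    (fun σ => (((z : GQ → Ad0 p k) σ : Ad0 p k) : M2 k)) (UrMain_two_ne_zero hp2)
    (fun σ τ => by
      have := (mem_Z1.1 z.2).1 σ τ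
      rw [this]
      rfl)
    (fun σ => (mem_Ad0 p _).1 ((z : GQ → Ad0 p k) σ).2)
    (fun σ hσ => ⟨hM₂ σ hσ.2, by
      have h1 := hz₁ 1 σ hσ.1
      rw [one_mul, Z1.map_one z.2] at h1
      rw [h1]
      rfl⟩)
    ⟨t, ht, χ, fun y hadd hvan => hχ k y hadd ⟨U₁ ⊓ U₂, Lall.isOpen_inf hU₁ hU₂, hvan⟩⟩
    hram
    (fun σ hσ => ⟨(unip_data M ρ' _ hcl (q : ℕ) hU hσ).1, (unip_data M ρ' _ hcl (q : ℕ) hU hσ).2.1⟩)
    (fun σ hσ => (unip_data M ρ' _ hcl (q : ℕ) hU hσ).2.2)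
  exact mk_res_mem_Lur q (ad0 p M) z ⟨m, (mem_Ad0 p _).2 hm0⟩
    (fun σ hσ => Subtype.ext (hm σ hσ))

/-- NB: no hypothesis on `M`; if `ad0 p M` is not smooth use the cocycle directly (`Zur`). -/
theorem unr_le_ur (M : GQ →* M2 k) (q : Nat.Primes) :
    Lcond p M (fun ρ' => ρ'.IsUnramifiedAt (q : ℕ)) q ≤ Lur q (ad0 p M) := by
  haveI : Fact (q : ℕ).Prime := ⟨q.2⟩
  rw [Lcond, Submodule.span_le]
  rintro _ ⟨ρ', z, hP, hcl, rfl⟩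
  refine ⟨(Pair.res Lall (ad0 p M) (DqP q)).z1 z, ?_, rfl⟩
  intro σ hσ
  exact Subtype.ext (unr_data M ρ' _ hcl (q : ℕ) hP hσ).2

end Fermat.Agent.S56.Loc

end
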