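import Fermat.Agent.S56.Loc.Mat
import Fermat.Agent.S55.Z.TargetL

/-!
# S56 / Loc / OrdDefs : definitions for the strictly ordinary condition.  (sorry-free, FROZEN)

* `omK p σ : k`  : the mod `p` cyclotomic character with values in `k`;
* `OrdShape p M B C` : `C = B⁻¹` and `C * M σ * B = !![ω z, *; 0, z]` on `D_p`, `z = 1` on `I_p`;
* `W1 p B C` : the trace zero matrices `m` with `C * m * B = !![0,*;0,0]`;
* `ZW1`, `Lord p M B C` : cocycles of `D_p` with values in `W1`, and their classes.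
-/

set_option autoImplicit false

noncomputable section

namespace Fermat.Agent.S56.Loc

open Fermat.Agent.S55 Fermat.Agent.S55.Places ExtCitation Module

variable (p : ℕ) [Fact p.Prime] {k : Type} [Field k] [Algebra (ZMod p) k]

/-- the cyclotomic character mod `p` with values in `k`. -/
def omK (k : Type) [Field k] [Algebra (ZMod p) k] (σ : GQ) : k :=
  algebraMap (ZMod p) k ((cycloChar p σ : (ZMod p)ˣ) : ZMod p)

/-- `M|D_p` is `!![ω z, *; 0, z]` in the basis `B` (`C = B⁻¹`), with `z` unramified. -/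
structure OrdShape (M : GQ →* M2 k) (B C : M2 k) : Prop where
  mul : B * C = 1
  mul' : C * B = 1
  low : ∀ σ ∈ Dq p, (C * M σ * B) 1 0 = 0
  diag : ∀ σ ∈ Dq p, (C * M σ * B) 0 0 = omK p k σ * (C * M σ * B) 1 1
  inert : ∀ σ ∈ Iq p, (C * M σ * B) 1 1 = 1

/-- `m` is strictly upper triangular in the basis `B`. -/
def IsW1 (B C m : M2 k) : Prop :=
  (C * m * B) 0 0 = 0 ∧ (C * m * B) 1 0 = 0 ∧ (C * m * B) 1 1 = 0

/-- `W¹ ⊂ ad⁰`. -/
def W1 (B C : M2 k) : Submodule (ZMod p) (Ad0 p k) where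
  carrier := {m | IsW1 B C (m : M2 k)}
  add_mem' := by
    rintro a b ⟨h1, h2, h3⟩ ⟨h1', h2', h3'⟩
    refine ⟨?_, ?_, ?_⟩ <;>
      simp only [Submodule.coe_add, mul_add, add_mul, Matrix.add_apply, h1, h2, h3, h1', h2', h3',
        add_zero]
  zero_mem' := by
    refine ⟨?_, ?_, ?_⟩ <;> simp
  smul_mem' := by
    rintro c a ⟨h1, h2, h3⟩
    refine ⟨?_, ?_, ?_⟩ <;>
      simp only [Submodule.coe_smul, Matrix.mul_smul, Matrix.smul_mul, Matrix.smul_apply, h1, h2,
        h3, smul_zero]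

lemma mem_W1 {B C : M2 k} {m : Ad0 p k} : m ∈ W1 p B C ↔ IsW1 B C (m : M2 k) := Iff.rfl

/-- cocycles of `D_p` with values in `W¹`. -/
def ZW1 (M : GQ →* M2 k) (B C : M2 k) :
    Submodule (ZMod p) ↥(Z1 (Lq p) (rsub (ad0 p M) (Dq p))) where
  carrier := {z | ∀ σ : Dq p, (z : Dq p → Ad0 p k) σ ∈ W1 p B C}
  add_mem' := fun ha hb σ => (W1 p B C).add_mem (ha σ) (hb σ)
  zero_mem' := fun _ => (W1 p B C).zero_mem
  smul_mem' := fun c _ ha σ => (W1 p B C).smul_mem c (ha σ)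

/-- the ordinary local condition. -/
def Lord (M : GQ →* M2 k) (B C : M2 k) :
    Submodule (ZMod p) (H1 (Lq p) (rsub (ad0 p M) (Dq p))) :=
  (ZW1 p M B C).map (H1.mk (Lq p) (rsub (ad0 p M) (Dq p)))

end Fermat.Agent.S56.Loc

end
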