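import Fermat.Agent.S55.L.Duality.Glue

/-!
# S56 / Loc / TameGen : the maximal elementary `p`-quotient of inertia is cyclic (`q ≠ p`), abstract.
TASK S56/Loc-TameGen

`h : LocalHyp p L ω 0`, `I ⊴ H`, `I ≤ ker ω`, every open `M ≥ I` has a nontrivial level character `M → ℤ/p` killing `I`.
THEN (`exists_tame_generator`) there are `t ∈ I` and `χ : H → ZMod p` with `y a = χ a • y t` for all `a ∈ I` and every
"level hom" `y : I → Y` (`Y` any `𝔽_p`-vector space).  Functions are defined on `H` and only their restriction to `I` matters.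

PROOF.
(A) `dependent`: two level homs `χ₁ χ₂ : I → ZMod p` are linearly dependent.  Take `U` open with `χ₁, χ₂ = 0` on `I ⊓ U`
    (intersect), `N'` open normal `≤ U ⊓ ker ω` (`L.exists_normal`, `h.ω_open`, `L.isOpen_inf`), `M := I ⊔ N'` (open by
    `isOpen_mono`, `≤ ker ω`; every element is `i * n`, `Subgroup.mem_sup` / `Subgroup.mul_normal`).
    Extend: `χ̃_j (i n) := χ_j i` (well defined: `i n = i' n' ⟹ i'⁻¹ i ∈ I ⊓ N'`; additive since `N'` is normal; use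
    `Classical.choose` of the decomposition, or define it on the quotient `M ⧸ N'`).  `χ̃_j` is a level cocycle of `M` for the trivial action: invariant under `N'.subgroupOf M`.
    `H1 (L.sub M) (trivF p M)` has finrank `2` (`h.h1 M _ _`, `n = 0`), so the three classes of `χ̃₁, χ̃₂, χ_ur` (from `hur M`) are linearly
    dependent (`exists_nontrivial_relation...` / `Module.finrank` + `LinearIndependent.fintype_card_le_finrank`);
    `B1 = 0` for the trivial representation, so the relation holds for functions: `α χ̃₁ + β χ̃₂ + γ χ_ur = 0` on `M`.  Restrict to `I`: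
    `α χ₁ + β χ₂ = 0`; if `α = β = 0` then `γ χ_ur = 0`, `χ_ur ≠ 0`, so `γ = 0`: contradiction.
(B) if every level hom `I → ZMod p` vanishes on `I`: `t = 1`, `χ = 0`; for `y` and `a ∈ I`, every `λ (y a) = 0`, so `y a = 0`
    (`Module.forall_dual_apply_eq_zero_iff (ZMod p)`).
    Otherwise pick `χ₀`, `a₀ ∈ I` with `χ₀ a₀ = u ≠ 0`, `t := a₀ ^ (u⁻¹).val` (`χ₀ t = 1`), `χ := χ₀`.  For `y`, `λ`:
    by (A) `α (λ ∘ y) + β χ₀ = 0`, `α ≠ 0` (else `β χ₀ = 0`), so `λ (y a) = c χ₀ a`, `c = λ (y t)`; hence `λ (y a - χ₀ a • y t) = 0` for all `λ`.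
-/

set_option autoImplicit false

noncomputable section

namespace Fermat.Agent.S56.Loc

open Fermat.Agent.S55 Module

variable {p : ℕ} [Fact p.Prime] {H : Type} [Group H] {L : Levels H} {ω : H →* (ZMod p)ˣ}

/-- `y` restricted to `I` is a homomorphism which kills `I ⊓ U` for an open `U`. -/
def IsLevelHomOn (L : Levels H) (I : Subgroup H) {Y : Type} [AddCommGroup Y] (y : H → Y) : Prop :=
  (∀ a ∈ I, ∀ b ∈ I, y (a * b) = y a + y b) ∧ ∃ U : Subgroup H, L.IsOpen U ∧ ∀ a ∈ I, a ∈ U → y a = 0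

theorem TameGen_map_one {I : Subgroup H} {Y : Type} [AddCommGroup Y] {y : H → Y}
    (hadd : ∀ a ∈ I, ∀ b ∈ I, y (a * b) = y a + y b) : y 1 = 0 := by
  have := hadd 1 I.one_mem 1 I.one_mem
  rw [mul_one] at this
  exact left_eq_add.mp this

theorem TameGen_map_pow {I : Subgroup H} {Y : Type} [AddCommGroup Y] {y : H → Y}
    (hadd : ∀ a ∈ I, ∀ b ∈ I, y (a * b) = y a + y b) {a : H} (ha : a ∈ I) (n : ℕ) :
    y (a ^ n) = n • y a := by
  induction n with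
  | zero => rw [pow_zero, zero_smul, TameGen_map_one hadd]
  | succ n ih => rw [pow_succ, hadd _ (I.pow_mem ha n) _ ha, ih, succ_nsmul]

/-- extension of a hom on `I` killing `I ⊓ N` to `I N`. -/
theorem TameGen_extend (I N : Subgroup H) (χ : H → ZMod p)
    (hadd : ∀ a ∈ I, ∀ b ∈ I, χ (a * b) = χ a + χ b) (hvan : ∀ a ∈ I, a ∈ N → χ a = 0) :
    ∃ χ' : H → ZMod p, ∀ i ∈ I, ∀ n ∈ N, χ' (i * n) = χ i := by
  classical
  refine ⟨fun m => if h : ∃ i ∈ I, ∃ n ∈ N, i * n = m then χ h.choose else 0, ?_⟩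
  intro i hi n hn
  have hex : ∃ i' ∈ I, ∃ n' ∈ N, i' * n' = i * n := ⟨i, hi, n, hn, rfl⟩
  simp only [dif_pos hex]
  obtain ⟨hi', n', hn', e⟩ := hex.choose_spec
  set i' := hex.choose
  -- `i'⁻¹ i = n' n⁻¹`
  have e1 : i'⁻¹ * i = n' * n⁻¹ := by
    rw [inv_mul_eq_iff_eq_mul, ← mul_assoc, e, mul_inv_cancel_right]
  have h1 : i'⁻¹ * i ∈ I := I.mul_mem (I.inv_mem hi') hi
  have h2 : i'⁻¹ * i ∈ N := by rw [e1]; exact N.mul_mem hn' (N.inv_mem hn)
  have h3 := hadd i' hi' _ h1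
  rw [mul_inv_cancel_left, hvan _ h1 h2, add_zero] at h3
  exact h3.symm

/-- the extended function is a level cocycle of `M = I ⊔ N`. -/
theorem TameGen_mem_Z1 (I N : Subgroup H) [N.Normal] (hN : L.IsOpen N) (χ χ' : H → ZMod p)
    (hadd : ∀ a ∈ I, ∀ b ∈ I, χ (a * b) = χ a + χ b)
    (hχ' : ∀ i ∈ I, ∀ n ∈ N, χ' (i * n) = χ i) :
    (fun m : ↥(I ⊔ N) => χ' (m : H)) ∈ Z1 (L.sub (I ⊔ N)) (trivF p ↥(I ⊔ N)) := by
  have hdec : ∀ m : ↥(I ⊔ N), ∃ i ∈ I, ∃ n ∈ N, i * n = (m : H) := by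
    intro m
    have hm : (m : H) ∈ ((I ⊔ N : Subgroup H) : Set H) := m.2
    rw [Subgroup.mul_normal] at hm
    exact Set.mem_mul.mp hm
  rw [mem_Z1]
  refine ⟨fun g g' => ?_, N.subgroupOf (I ⊔ N), hN.subgroupOf _, fun g s hs => ?_⟩
  · obtain ⟨i, hi, n, hn, e⟩ := hdec g
    obtain ⟨i', hi', n', hn', e'⟩ := hdec g'
    have e2 : ((g * g' : ↥(I ⊔ N)) : H) = (i * i') * ((i'⁻¹ * n * i') * n') := by
      rw [Subgroup.coe_mul, ← e, ← e']; group
    have hn2 : (i'⁻¹ * n * i') * n' ∈ N := by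
      refine N.mul_mem ?_ hn'
      have := (inferInstance : N.Normal).conj_mem n hn i'⁻¹
      rwa [inv_inv] at this
    show χ' ((g * g' : ↥(I ⊔ N)) : H) = trivF p ↥(I ⊔ N) g (χ' (g' : H)) + χ' (g : H)
    rw [e2, hχ' _ (I.mul_mem hi hi') _ hn2, ← e, ← e', hχ' _ hi _ hn, hχ' _ hi' _ hn',
      hadd _ hi _ hi', Representation.trivial_apply, add_comm]
  · obtain ⟨i, hi, n, hn, e⟩ := hdec g
    have hs' : (s : H) ∈ N := Subgroup.mem_subgroupOf.mp hs
    show χ' ((g * s : ↥(I ⊔ N)) : H) = χ' (g : H)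
    rw [Subgroup.coe_mul, ← e, mul_assoc, hχ' _ hi _ (N.mul_mem hn hs'), hχ' _ hi _ hn]

/-- a level character as a cocycle. -/
theorem TameGen_char_mem_Z1 {M : Type} [Group M] {LM : Levels M} (χ : M →* Multiplicative (ZMod p))
    (hχ : LM.IsOpen χ.ker) :
    (fun m : M => Multiplicative.toAdd (χ m)) ∈ Z1 LM (trivF p M) := by
  rw [mem_Z1]
  refine ⟨fun g g' => ?_, χ.ker, hχ, fun g s hs => ?_⟩
  · show Multiplicative.toAdd (χ (g * g')) = trivF p M g (Multiplicative.toAdd (χ g'))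
      + Multiplicative.toAdd (χ g)
    rw [map_mul, toAdd_mul, Representation.trivial_apply, add_comm]
  · show Multiplicative.toAdd (χ (g * s)) = Multiplicative.toAdd (χ g)
    rw [map_mul, MonoidHom.mem_ker.mp hs, mul_one]

/-- (A) -/
theorem IsLevelHomOn.dependent (h : LocalHyp p L ω 0) (I : Subgroup H) [I.Normal] (hI : I ≤ ω.ker)
    (hur : ∀ M : Subgroup H, L.IsOpen M → I ≤ M → ∃ χ : M →* Multiplicative (ZMod p),
      χ ≠ 1 ∧ (L.sub M).IsOpen χ.ker ∧ I.subgroupOf M ≤ χ.ker)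
    {χ₁ χ₂ : H → ZMod p} (h₁ : IsLevelHomOn L I χ₁) (h₂ : IsLevelHomOn L I χ₂) :
    ∃ α β : ZMod p, (α ≠ 0 ∨ β ≠ 0) ∧ ∀ a ∈ I, α * χ₁ a + β * χ₂ a = 0 := by
  obtain ⟨add₁, U₁, hU₁, van₁⟩ := h₁
  obtain ⟨add₂, U₂, hU₂, van₂⟩ := h₂
  obtain ⟨N, hN, hNU, hNn, -⟩ := L.exists_normal (L.isOpen_inf (L.isOpen_inf hU₁ hU₂) h.ω_open)
  have hMopen : L.IsOpen (I ⊔ N) := L.isOpen_mono hN le_sup_right
  have hMker : I ⊔ N ≤ ω.ker := sup_le hI (hNU.trans inf_le_right)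
  obtain ⟨χ₁', hχ₁'⟩ := TameGen_extend I N χ₁ add₁ (fun a ha haN => van₁ a ha (hNU haN).1.1)
  obtain ⟨χ₂', hχ₂'⟩ := TameGen_extend I N χ₂ add₂ (fun a ha haN => van₂ a ha (hNU haN).1.2)
  obtain ⟨χu, hχu1, hχuo, hχuI⟩ := hur (I ⊔ N) hMopen le_sup_left
  let z₁ : ↥(Z1 (L.sub (I ⊔ N)) (trivF p ↥(I ⊔ N))) :=
    ⟨_, TameGen_mem_Z1 I N hN χ₁ χ₁' add₁ hχ₁'⟩
  let z₂ : ↥(Z1 (L.sub (I ⊔ N)) (trivF p ↥(I ⊔ N))) :=
    ⟨_, TameGen_mem_Z1 I N hN χ₂ χ₂' add₂ hχ₂'⟩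
  let zu : ↥(Z1 (L.sub (I ⊔ N)) (trivF p ↥(I ⊔ N))) := ⟨_, TameGen_char_mem_Z1 χu hχuo⟩
  have hrank : finrank (ZMod p) (H1 (L.sub (I ⊔ N)) (trivF p ↥(I ⊔ N))) = 2 := by
    rw [h.h1 _ hMopen hMker, zero_mul, add_zero]
  have hfin : Module.Finite (ZMod p) (H1 (L.sub (I ⊔ N)) (trivF p ↥(I ⊔ N))) :=
    Module.finite_of_finrank_pos (by rw [hrank]; norm_num)
  have hnli : ¬ LinearIndependent (ZMod p)
      ![H1.mk (L.sub (I ⊔ N)) (trivF p ↥(I ⊔ N)) z₁, H1.mk (L.sub (I ⊔ N)) (trivF p ↥(I ⊔ N)) z₂,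
        H1.mk (L.sub (I ⊔ N)) (trivF p ↥(I ⊔ N)) zu] := by
    intro hli
    have := hli.fintype_card_le_finrank
    rw [hrank, Fintype.card_fin] at this
    omega
  rw [Fintype.not_linearIndependent_iff] at hnli
  obtain ⟨g, hg, hg0⟩ := hnli
  rw [Fin.sum_univ_three] at hg
  simp only [Matrix.cons_val_zero, Matrix.cons_val_one, Matrix.cons_val_two, Matrix.head_cons,
    Matrix.tail_cons] at hg
  rw [← map_smul, ← map_smul, ← map_smul, ← map_add, ← map_add, H1.mk_eq_zero_iff] at hg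
  obtain ⟨x, hx⟩ := hg
  have hrel : ∀ m : ↥(I ⊔ N), g 0 * χ₁' (m : H) + g 1 * χ₂' (m : H)
      + g 2 * Multiplicative.toAdd (χu m) = 0 := by
    intro m
    have := hx m
    rw [Representation.trivial_apply, sub_self] at this
    exact this
  have hI' : ∀ a ∈ I, g 0 * χ₁ a + g 1 * χ₂ a = 0 := by
    intro a ha
    have haM : a ∈ I ⊔ N := (le_sup_left : I ≤ I ⊔ N) ha
    have := hrel ⟨a, haM⟩
    have hk : χu ⟨a, haM⟩ = 1 := MonoidHom.mem_ker.mp (hχuI (Subgroup.mem_subgroupOf.mpr ha))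
    have e₁ : χ₁' a = χ₁ a := by have := hχ₁' a ha 1 N.one_mem; rwa [mul_one] at this
    have e₂ : χ₂' a = χ₂ a := by have := hχ₂' a ha 1 N.one_mem; rwa [mul_one] at this
    rw [hk, toAdd_one, mul_zero, add_zero] at this
    rw [← e₁, ← e₂]
    exact this
  refine ⟨g 0, g 1, ?_, hI'⟩
  by_contra hcon
  rw [not_or, not_not, not_not] at hcon
  have hg2 : g 2 ≠ 0 := by
    obtain ⟨i, hi⟩ := hg0
    fin_cases i
    · exact absurd hcon.1 hi
    · exact absurd hcon.2 hi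
    · exact hi
  apply hχu1
  refine MonoidHom.ext fun m => ?_
  have := hrel m
  rw [hcon.1, hcon.2, zero_mul, zero_mul, zero_add, zero_add] at this
  have h0 := (mul_eq_zero.mp this).resolve_left hg2
  exact Multiplicative.toAdd.injective (by rw [h0]; rfl)

/-- **MAIN** -/
theorem exists_tame_generator (h : LocalHyp p L ω 0) (I : Subgroup H) [I.Normal] (hI : I ≤ ω.ker)
    (hur : ∀ M : Subgroup H, L.IsOpen M → I ≤ M → ∃ χ : M →* Multiplicative (ZMod p),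
      χ ≠ 1 ∧ (L.sub M).IsOpen χ.ker ∧ I.subgroupOf M ≤ χ.ker) :
    ∃ t ∈ I, ∃ χ : H → ZMod p, ∀ (Y : Type) [AddCommGroup Y] [Module (ZMod p) Y] (y : H → Y),
      IsLevelHomOn L I y → ∀ a ∈ I, y a = χ a • y t := by
  have hcomp : ∀ (Y : Type) [AddCommGroup Y] [Module (ZMod p) Y] (y : H → Y)
      (l : Module.Dual (ZMod p) Y), IsLevelHomOn L I y → IsLevelHomOn L I (fun a => l (y a)) := by
    intro Y _ _ y l hy
    obtain ⟨hadd, U, hU, hvan⟩ := hy
    exact ⟨fun a ha b hb => by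
        show l (y (a * b)) = l (y a) + l (y b)
        rw [hadd a ha b hb, map_add], U, hU,
      fun a ha haU => by
        show l (y a) = 0
        rw [hvan a ha haU, map_zero]⟩
  by_cases hall : ∀ χ : H → ZMod p, IsLevelHomOn L I χ → ∀ a ∈ I, χ a = 0
  · refine ⟨1, I.one_mem, fun _ => 0, fun Y _ _ y hy a ha => ?_⟩
    rw [zero_smul, ← Module.forall_dual_apply_eq_zero_iff (ZMod p)]
    intro l
    exact hall _ (hcomp Y y l hy) a ha
  · push Not at hall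
    obtain ⟨χ₀, hχ₀, a₀, ha₀, hu⟩ := hall
    have ht : χ₀ (a₀ ^ ((χ₀ a₀)⁻¹).val) = 1 := by
      rw [TameGen_map_pow hχ₀.1 ha₀, nsmul_eq_mul, ZMod.natCast_zmod_val, inv_mul_cancel₀ hu]
    refine ⟨a₀ ^ ((χ₀ a₀)⁻¹).val, I.pow_mem ha₀ _, χ₀, fun Y _ _ y hy a ha => ?_⟩
    set t := a₀ ^ ((χ₀ a₀)⁻¹).val with htdef
    have htI : t ∈ I := I.pow_mem ha₀ _
    rw [← sub_eq_zero, ← Module.forall_dual_apply_eq_zero_iff (ZMod p)]
    intro l
    obtain ⟨α, β, hαβ, hrel⟩ := IsLevelHomOn.dependent h I hI hur (hcomp Y y l hy) hχ₀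
    have hα : α ≠ 0 := by
      intro hα
      have hβ : β ≠ 0 := hαβ.resolve_left (not_not.mpr hα)
      have := hrel a₀ ha₀
      rw [hα, zero_mul, zero_add] at this
      exact hu ((mul_eq_zero.mp this).resolve_left hβ)
    have h1 := hrel a ha
    have h2 := hrel t htI
    rw [ht, mul_one] at h2
    rw [map_sub, map_smul, smul_eq_mul]
    have h3 : α * (l (y a) - χ₀ a * l (y t)) = 0 := by
      linear_combination h1 - χ₀ a * h2
    exact (mul_eq_zero.mp h3).resolve_left hα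

end Fermat.Agent.S56.Loc

end
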