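import Fermat.Agent.S56.Loc.Arith1
import Fermat.Agent.S56.Loc.TameGen

/-!
# S56 / Loc / Arith2 : a tame generator of `I_q` modulo `p` (`q ≠ p`), on `GQ`.   TASK S56/Loc-Arith2

Apply `exists_tame_generator` to `H = ↥(Dq q)`, `L = Lq q`, `ω = (cycloChar p).comp (Dq q).subtype`, `I = IqD q`:
* `h := loc_hyp hp2 q` with `if q = p then 1 else 0 = 0`;
* `I.Normal` : `(procyclicMod_Dq hφ).normal` (`exists_isFrob q`) or `Iq_conj_mem`;
* `I ≤ ker ω` : `cycloChar_eq_one_of_mem_Iq`;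
* `hur M` : `W := M.map (Dq q).subtype`, `IsOpenIn (Dq q) W`; `exists_unramified_char hW p` gives
  `χ : W →* Multiplicative (ZMod p)` surjective, open kernel, killing `W ⊓ Iq q`; transport along the isomorphism `M ≃* W`
  (`Subgroup.equivMapOfInjective`), `χ ≠ 1` since it is surjective and `ZMod p` is nontrivial.
Then translate: for `y : GQ → Y` apply the abstract statement to `fun g : ↥(Dq q) => y g`; `χ` on `GQ` := `fun g => if h : g ∈ Dq q then χ' ⟨g,h⟩ else 0`;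
an open `U` of `Lall` gives the open `U.subgroupOf (Dq q)` of `Lq q` (`Levels.IsOpen.subgroupOf`).
-/

set_option autoImplicit false

noncomputable section

namespace Fermat.Agent.S56.Loc

open Fermat.Agent.S55 Fermat.Agent.S55.Places ExtCitation Module

variable {p : ℕ} [Fact p.Prime] {q : ℕ} [Fact q.Prime]

theorem Arith2_normal_IqD (q : ℕ) [Fact q.Prime] : (IqD q).Normal :=
  ⟨fun n hn g => by
    rw [Subgroup.mem_subgroupOf] at hn ⊢
    exact Iq_conj_mem q g.2 hn⟩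

theorem Arith2_hur (p : ℕ) [Fact p.Prime] (q : ℕ) [Fact q.Prime] (M : Subgroup ↥(Dq q))
    (hM : (Lq q).IsOpen M) :
    ∃ χ : M →* Multiplicative (ZMod p),
      χ ≠ 1 ∧ ((Lq q).sub M).IsOpen χ.ker ∧ (IqD q).subgroupOf M ≤ χ.ker := by
  have hW : IsOpenIn (Dq q) (M.map (Dq q).subtype) := isOpen_sub_iff.1 hM
  obtain ⟨χW, hsurj, ⟨-, E, hE, hEk⟩, hIk⟩ := exists_unramified_char hW p
  let e : M ≃* ↥(M.map (Dq q).subtype) :=
    Subgroup.equivMapOfInjective M (Dq q).subtype (Subgroup.subtype_injective _)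
  have hcoe : ∀ m : M, ((e m : ↥(M.map (Dq q).subtype)) : GQ) = ((m : ↥(Dq q)) : GQ) := fun m =>
    Subgroup.coe_equivMapOfInjective_apply _ _ _ m
  have hkey : ∀ m : M, ((m : ↥(Dq q)) : GQ) ∈ χW.ker.map (M.map (Dq q).subtype).subtype →
      χW (e m) = 1 := by
    intro m hm
    obtain ⟨w, hw, hwm⟩ := Subgroup.mem_map.1 hm
    have : w = e m := Subtype.ext (hwm.trans (hcoe m).symm)
    rw [← this]
    exact MonoidHom.mem_ker.mp hw
  have hmemW : ∀ m : M, ((m : ↥(Dq q)) : GQ) ∈ M.map (Dq q).subtype := fun m =>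
    Subgroup.mem_map.2 ⟨m, m.2, rfl⟩
  refine ⟨χW.comp e.toMonoidHom, ?_, ?_, ?_⟩
  · intro h1
    obtain ⟨w, hw⟩ := hsurj (Multiplicative.ofAdd 1)
    have h2 := congrArg (fun f : M →* Multiplicative (ZMod p) => f (e.symm w)) h1
    simp only [MonoidHom.comp_apply, MulEquiv.coe_toMonoidHom, MulEquiv.apply_symm_apply,
      MonoidHom.one_apply] at h2
    rw [hw] at h2
    have h3 : (1 : ZMod p) = 0 := congrArg Multiplicative.toAdd h2
    exact one_ne_zero h3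
  · refine ⟨E.fixingSubgroup.subgroupOf (Dq q),
      (Lall_isOpen_iff.2 ⟨E, hE, le_rfl⟩).subgroupOf _, fun m hm => ?_⟩
    rw [MonoidHom.mem_ker]
    exact hkey m (hEk ⟨hmemW m, hm⟩)
  · intro m hm
    rw [MonoidHom.mem_ker]
    exact hkey m (hIk ⟨hmemW m, hm⟩)

theorem exists_tame_generator_Iq (hp2 : p ≠ 2) (hqp : q ≠ p) :
    ∃ t ∈ Iq q, ∃ χ : GQ → ZMod p, ∀ (Y : Type) [AddCommGroup Y] [Module (ZMod p) Y] (y : GQ → Y),
      (∀ a ∈ Iq q, ∀ b ∈ Iq q, y (a * b) = y a + y b) →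
      (∃ U : Subgroup GQ, Lall.IsOpen U ∧ ∀ a ∈ Iq q, a ∈ U → y a = 0) →
      ∀ a ∈ Iq q, y a = χ a • y t := by
  classical
  have h : LocalHyp p (Lq q) ((cycloChar p).comp (Dq q).subtype) 0 := by
    have := loc_hyp (p := p) hp2 q
    rwa [if_neg hqp] at this
  haveI := Arith2_normal_IqD q
  have hI : IqD q ≤ ((cycloChar p).comp (Dq q).subtype).ker := by
    intro x hx
    rw [MonoidHom.mem_ker]
    exact cycloChar_eq_one_of_mem_Iq hqp (Subgroup.mem_subgroupOf.mp hx)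
  obtain ⟨t, ht, χ', hχ'⟩ := exists_tame_generator h (IqD q) hI
    (fun M hM _ => Arith2_hur p q M hM)
  refine ⟨t, Subgroup.mem_subgroupOf.mp ht, fun g => if hg : g ∈ Dq q then χ' ⟨g, hg⟩ else 0, ?_⟩
  intro Y _ _ y hadd hlev a ha
  obtain ⟨U, hU, hvan⟩ := hlev
  have haD : a ∈ Dq q := Iq_le_Dq q ha
  have := hχ' Y (fun g : ↥(Dq q) => y (g : GQ))
    ⟨fun a ha b hb => hadd _ (Subgroup.mem_subgroupOf.mp ha) _ (Subgroup.mem_subgroupOf.mp hb),
      U.subgroupOf (Dq q), hU.subgroupOf _,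
      fun a ha haU => hvan _ (Subgroup.mem_subgroupOf.mp ha) (Subgroup.mem_subgroupOf.mp haU)⟩
    ⟨a, haD⟩ (Subgroup.mem_subgroupOf.mpr ha)
  simp only [dif_pos haD]
  exact this

end Fermat.Agent.S56.Loc

end
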