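import Fermat.Agent.S56.Loc.OrdDefs

/-!
# S56 / Loc / OrdData : the Prelude's `IsStrictOrdinaryAt p` in matrix form.     TASK S56/Loc-OrdData

`h : IsClassOf M ρ' z` gives a basis `b` with `S53.adicMat ρ' b σ = liftMat M z σ` (`isClassOf_iff`).
`hO.2 (padicPlace p) (padicPlace_liesOverPrime p)` gives `L`, `⟨b', hL : L = A ∙ b' 0⟩`, `hD`, `hI`, `hx`.
(`Dq p = (padicPlace p).decompositionSubgroup ℚ`, `Iq p = (padicPlace p).inertiaSubgroupIn ℚ` by `rfl`.)
`B := b.toMatrix b'`, `C := b'.toMatrix b`:  `Basis.toMatrix_mul_toMatrix_flip`;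
`C * toMatrix b b f * B = toMatrix b' b' f` (`basis_toMatrix_mul_linearMap_toMatrix_mul_basis_toMatrix`).
`toMatrix b' b' f i j = b'.repr (f (b' j)) i` (`LinearMap.toMatrix_apply`).
For `σ ∈ D_p` take `x z` from `hx σ hσ`: `f (b' 0) = x • b' 0` (as `b' 0 ∈ L`), so entries `(0,0) = x`, `(1,0) = 0`;
`f (b' 1) - z • b' 1 ∈ L = span {b' 0}` (`Submodule.mem_span_singleton`), so entry `(1,1) = z`.
`x - a * z ∈ span {((p^1 : ℕ) : A)}` with `a := ((cycloChar p σ : (ZMod p)ˣ) : ZMod p).val`, hypothesis from `cycloChar_spec` (a root `μ` of `μ^(p^1) = 1` is a unit: `μ ≠ 0`;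
use `Units.mk0`); `((p^1 : ℕ) : DualNumber k) = 0` because `k` has characteristic `p` (`CharP k p` from `Algebra (ZMod p) k`: `(p : k) = algebraMap (ZMod p) k (p : ZMod p) = 0`,
then `TrivSqZeroExt.ext`/`map_natCast (TrivSqZeroExt.inlHom k k)`), so `x = a * z`, and `(a : A) = inl (omK p k σ)` (`ZMod.natCast_zmod_val`, `map_natCast`).
For `σ ∈ I_p`: `f (b' 1) - b' 1 ∈ L`: entry `(1,1) = 1`.
-/

set_option autoImplicit false

noncomputable section

namespace Fermat.Agent.S56.Loc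

open Fermat.Agent.S55 Fermat.Agent.S55.Places ExtCitation Module

variable {p : ℕ} [Fact p.Prime] {k : Type} [Field k] [Algebra (ZMod p) k]

theorem ord_data (M : GQ →* M2 k) (ρ' : GaloisRepAdic (DualNumber k)) (z : GQ → M2 k)
    (h : IsClassOf M ρ' z) (hO : ρ'.IsStrictOrdinaryAt p) :
    ∃ B C : M2 (DualNumber k), B * C = 1 ∧ C * B = 1 ∧
      (∀ σ ∈ Dq p, (C * liftMat M z σ * B) 1 0 = 0 ∧
        (C * liftMat M z σ * B) 0 0 =
          TrivSqZeroExt.inl (omK p k σ) * (C * liftMat M z σ * B) 1 1) ∧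
      (∀ σ ∈ Iq p, (C * liftMat M z σ * B) 1 1 = 1) := by
  obtain ⟨b, hb⟩ := (isClassOf_iff M ρ' z).1 h
  obtain ⟨L, ⟨b', hL⟩, -, hI, hx⟩ := hO.2 (padicPlace p) (padicPlace_liesOverPrime p)
  have hconj : ∀ σ, b'.toMatrix b * liftMat M z σ * b.toMatrix b'
      = LinearMap.toMatrix b' b' (ρ'.ρ σ) := by
    intro σ
    rw [← hb σ, S53.adicMat_apply]
    exact basis_toMatrix_mul_linearMap_toMatrix_mul_basis_toMatrix _ _ _ _ _
  have hb0 : b' 0 ∈ L := by
    rw [hL]
    exact Submodule.mem_span_singleton_self _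
  have h10 : (1 : Fin 2) ≠ 0 := by decide
  have h01 : (0 : Fin 2) ≠ 1 := by decide
  refine ⟨b.toMatrix b', b'.toMatrix b, Basis.toMatrix_mul_toMatrix_flip _ _,
    Basis.toMatrix_mul_toMatrix_flip _ _, ?_, ?_⟩
  · intro σ hσ
    rw [hconj]
    obtain ⟨x, zz, h1, h2, h3⟩ := hx σ hσ
    have e0 : ρ'.ρ σ (b' 0) = x • b' 0 := h1 _ hb0
    obtain ⟨c, hc⟩ : ∃ c : DualNumber k, c • b' 0 = ρ'.ρ σ (b' 1) - zz • b' 1 := by
      have := h2 (b' 1)
      rw [hL] at this
      exact Submodule.mem_span_singleton.1 this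
    have e1 : ρ'.ρ σ (b' 1) = c • b' 0 + zz • b' 1 := by
      rw [hc]
      abel
    have m10 : LinearMap.toMatrix b' b' (ρ'.ρ σ) 1 0 = 0 := by
      rw [LinearMap.toMatrix_apply, e0, map_smul, Basis.repr_self, Finsupp.smul_apply,
        Finsupp.single_apply, if_neg h01, smul_zero]
    have m00 : LinearMap.toMatrix b' b' (ρ'.ρ σ) 0 0 = x := by
      rw [LinearMap.toMatrix_apply, e0, map_smul, Basis.repr_self, Finsupp.smul_apply,
        Finsupp.single_apply, if_pos rfl, smul_eq_mul, mul_one]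
    have m11 : LinearMap.toMatrix b' b' (ρ'.ρ σ) 1 1 = zz := by
      rw [LinearMap.toMatrix_apply, e1, map_add, map_smul, map_smul, Basis.repr_self,
        Basis.repr_self, Finsupp.add_apply, Finsupp.smul_apply, Finsupp.smul_apply,
        Finsupp.single_apply, Finsupp.single_apply, if_neg h01, if_pos rfl, smul_zero, zero_add,
        smul_eq_mul, mul_one]
    refine ⟨m10, ?_⟩
    rw [m00, m11]
    have hspec : ∀ μ : AlgebraicClosure ℚ, μ ^ p ^ 1 = 1 →
        σ μ = μ ^ ((cycloChar p σ : (ZMod p)ˣ) : ZMod p).val := by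
      intro μ hμ
      rw [pow_one] at hμ
      have hμ0 : μ ≠ 0 := by
        rintro rfl
        rw [zero_pow (Fact.out : p.Prime).ne_zero] at hμ
        exact zero_ne_one hμ
      exact cycloChar_spec p σ (Units.mk0 μ hμ0) (Units.ext (by simpa using hμ))
    have h4 := h3 1 _ hspec
    have hpk : ((p : ℕ) : k) = 0 := by
      rw [← map_natCast (algebraMap (ZMod p) k) p, ZMod.natCast_self, map_zero]
    have hpA : ((p ^ 1 : ℕ) : DualNumber k) = 0 := by
      rw [pow_one, ← map_natCast (TrivSqZeroExt.inlHom k k) p, hpk, map_zero]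
    rw [hpA, Ideal.mem_span_singleton, zero_dvd_iff, sub_eq_zero] at h4
    rw [h4]
    congr 1
    rw [← map_natCast (TrivSqZeroExt.inlHom k k), ← map_natCast (algebraMap (ZMod p) k),
      ZMod.natCast_zmod_val]
    rfl
  · intro σ hσ
    rw [hconj]
    obtain ⟨c, hc⟩ : ∃ c : DualNumber k, c • b' 0 = ρ'.ρ σ (b' 1) - b' 1 := by
      have := hI σ hσ (b' 1)
      rw [hL] at this
      exact Submodule.mem_span_singleton.1 this
    have e1 : ρ'.ρ σ (b' 1) = c • b' 0 + b' 1 := by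
      rw [hc]
      abel
    rw [LinearMap.toMatrix_apply, e1, map_add, map_smul, Basis.repr_self,
      Basis.repr_self, Finsupp.add_apply, Finsupp.smul_apply,
      Finsupp.single_apply, Finsupp.single_apply, if_neg h01, if_pos rfl, smul_zero, zero_add]

end Fermat.Agent.S56.Loc

end
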