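import Fermat.Agent.S56.Defs

/-!
# S56 / Loc / TWMat : a `2 × 2` matrix with distinct eigenvalues in a finite field.     TASK S56/Loc-TWMat

`g : M2 k`, `g.charpoly = (X - C α) * (X - C β)`, `α ≠ β`.
* `pow_card_sub_one_eq_one` (`det g ≠ 0`, `k` finite, `n := Nat.card k - 1`): `α β = det g ≠ 0` (coefficient 0 of `Matrix.charpoly_fin_two` / `Matrix.det_eq_sign_charpoly_coeff`),
  so `α^n = β^n = 1` (`FiniteField.pow_card_sub_one_eq_one`, `Nat.card_eq_fintype_card`); `(X - C α)`, `(X - C β)` are coprime and both divide `X^n - 1`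
  (`Polynomial.dvd_iff_isRoot`), so the product divides it (`IsCoprime.mul_dvd`, `Polynomial.isCoprime_X_sub_C_of_isUnit_sub`); `aeval g charpoly = 0` (`Matrix.aeval_self_charpoly`), hence `g^n - 1 = 0`.
* `exists_diag` : `∃ P Q, P * Q = 1 ∧ Q * P = 1 ∧ P * g * Q = !![α,0;0,β]`.  [eigenvectors: `g = !![a,b;c,d]`, `a + d = α + β`, `a d - b c = α β`.
  Columns of `g - β` are `α`-eigenvectors, columns of `g - α` are `β`-eigenvectors (Cayley-Hamilton), both matrices are nonzero (else `g` scalar and `α = β`);
  pick nonzero columns `v₁, v₂`; they are independent (distinct eigenvalues).  Or a case split on `b ≠ 0` / `c ≠ 0` / `b = c = 0`.]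
* `finrank_centralizer_le` : `m ↦ (P * m * Q) 0 0` is `ZMod p`-linear and injective on `{m ∈ Ad0 | g * m = m * g}`: `X := P m Q` commutes with `!![α,0;0,β]`,
  so `(α - β) X 0 1 = 0 = (β - α) X 1 0`, `tr X = tr m = 0`, so `X = !![x,0;0,-x]`.
-/

set_option autoImplicit false

noncomputable section

namespace Fermat.Agent.S56.Loc

open Module Polynomial

variable {p : ℕ} [Fact p.Prime] {k : Type} [Field k] [Algebra (ZMod p) k]

theorem TWMat_trace_det (g : M2 k) {α β : k}
    (hchar : g.charpoly = (X - C α) * (X - C β)) : g.trace = α + β ∧ g.det = α * β := by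
  have h2 : (X - C α) * (X - C β) = X ^ 2 - C (α + β) * X + C (α * β) := by
    simp only [map_add, map_mul]; ring
  rw [Matrix.charpoly_fin_two, h2] at hchar
  constructor
  · have := congrArg (fun q => q.coeff 1) hchar
    simp [coeff_X_pow, coeff_C] at this
    linear_combination (-1 : k) * this
  · have := congrArg (fun q => q.coeff 0) hchar
    simpa [coeff_X_pow] using this

theorem pow_card_sub_one_eq_one [Finite k] (g : M2 k) {α β : k} (hαβ : α ≠ β)
    (hchar : g.charpoly = (X - C α) * (X - C β)) (hdet : g.det ≠ 0) :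
    g ^ (Nat.card k - 1) = 1 := by
  have := Fintype.ofFinite k
  obtain ⟨-, hd⟩ := TWMat_trace_det g hchar
  rw [hd] at hdet
  have hα : α ≠ 0 := left_ne_zero_of_mul hdet
  have hβ : β ≠ 0 := right_ne_zero_of_mul hdet
  rw [Nat.card_eq_fintype_card]
  set n := Fintype.card k - 1 with hn
  have h1 : (X - C α) ∣ (X ^ n - 1 : k[X]) := by
    rw [dvd_iff_isRoot, IsRoot.def]
    simp [hn, FiniteField.pow_card_sub_one_eq_one α hα]
  have h2 : (X - C β) ∣ (X ^ n - 1 : k[X]) := by
    rw [dvd_iff_isRoot, IsRoot.def]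
    simp [hn, FiniteField.pow_card_sub_one_eq_one β hβ]
  have hcop : IsCoprime (X - C α) (X - C β) :=
    isCoprime_X_sub_C_of_isUnit_sub (sub_ne_zero.2 hαβ).isUnit
  obtain ⟨q, hq⟩ := hcop.mul_dvd h1 h2
  have h3 := congrArg (aeval g) hq
  rw [← hchar, map_mul, Matrix.aeval_self_charpoly, zero_mul] at h3
  simpa [sub_eq_zero] using h3

theorem TWMat_diag_of (g Q D : M2 k) (hQ : Q.det ≠ 0) (h : g * Q = Q * D) :
    ∃ P Q : M2 k, P * Q = 1 ∧ Q * P = 1 ∧ P * g * Q = D := by
  have hu : IsUnit Q.det := hQ.isUnit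
  refine ⟨Q⁻¹, Q, Matrix.nonsing_inv_mul Q hu, Matrix.mul_nonsing_inv Q hu, ?_⟩
  rw [mul_assoc, h, ← mul_assoc, Matrix.nonsing_inv_mul Q hu, one_mul]

theorem exists_diag (g : M2 k) {α β : k} (hαβ : α ≠ β)
    (hchar : g.charpoly = (X - C α) * (X - C β)) :
    ∃ P Q : M2 k, P * Q = 1 ∧ Q * P = 1 ∧ P * g * Q = !![α, 0; 0, β] := by
  obtain ⟨ht, hd⟩ := TWMat_trace_det g hchar
  rw [Matrix.trace_fin_two] at ht
  rw [Matrix.det_fin_two] at hd
  obtain ⟨a, b, c, d, rfl⟩ : ∃ a b c d, g = !![a, b; c, d] :=
    ⟨g 0 0, g 0 1, g 1 0, g 1 1, (Matrix.eta_fin_two g)⟩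
  simp only [Matrix.of_apply, Matrix.cons_val', Matrix.cons_val_zero, Matrix.cons_val_one,
    Matrix.cons_val_fin_one] at ht hd
  have hαβ' : α - β ≠ 0 := sub_ne_zero.2 hαβ
  by_cases hb : b = 0
  · by_cases hc : c = 0
    · subst hb hc
      have h0 : (a - α) * (a - β) = 0 := by linear_combination a * ht - hd
      rcases mul_eq_zero.1 h0 with h1 | h1
      · have ha : a = α := sub_eq_zero.1 h1
        have hd' : d = β := by linear_combination ht - ha
        subst ha hd'
        exact ⟨1, 1, by simp, by simp, by simp⟩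
      · have ha : a = β := sub_eq_zero.1 h1
        have hd' : d = α := by linear_combination ht - ha
        subst ha hd'
        refine TWMat_diag_of _ !![0, 1; 1, 0] _ (by simp [Matrix.det_fin_two]) ?_
        simp
    · refine TWMat_diag_of _ !![α - d, β - d; c, c] _ ?_ ?_
      · rw [Matrix.det_fin_two_of]
        have : (α - d) * c - (β - d) * c = (α - β) * c := by ring
        rw [this]; exact mul_ne_zero hαβ' hc
      · rw [Matrix.mul_fin_two, Matrix.mul_fin_two]
        congr 1
        ext i j
        fin_cases i <;> fin_cases j <;> simp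
        · linear_combination α * ht - hd
        · linear_combination β * ht - hd
        · ring
        · ring
  · refine TWMat_diag_of _ !![b, b; α - a, β - a] _ ?_ ?_
    · rw [Matrix.det_fin_two_of]
      have : b * (β - a) - b * (α - a) = - ((α - β) * b) := by ring
      rw [this]; exact neg_ne_zero.2 (mul_ne_zero hαβ' hb)
    · rw [Matrix.mul_fin_two, Matrix.mul_fin_two]
      congr 1
      ext i j
      fin_cases i <;> fin_cases j <;> simp
      · ring
      · ring
      · linear_combination α * ht - hd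
      · linear_combination β * ht - hd

/-- the trace zero matrices commuting with `g`. -/
def centAd0 (p : ℕ) [Fact p.Prime] [Algebra (ZMod p) k] (g : M2 k) : Submodule (ZMod p) (Ad0 p k) where
  carrier := {m | g * (m : M2 k) = (m : M2 k) * g}
  add_mem' := by
    intro a b ha hb
    simp only [Set.mem_setOf_eq, Submodule.coe_add, mul_add, add_mul] at *
    rw [ha, hb]
  zero_mem' := by simp
  smul_mem' := by
    intro c a ha
    simp only [Set.mem_setOf_eq, Submodule.coe_smul, Matrix.mul_smul, Matrix.smul_mul] at *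
    rw [ha]

theorem finrank_centralizer_le [Finite k] (g : M2 k) {α β : k} (hαβ : α ≠ β)
    (hchar : g.charpoly = (X - C α) * (X - C β)) :
    finrank (ZMod p) ↥(centAd0 p g) ≤ finrank (ZMod p) k := by
  obtain ⟨P, Q, hPQ, hQP, hD⟩ := exists_diag g hαβ hchar
  let φ : ↥(centAd0 p g) →ₗ[ZMod p] k :=
    { toFun := fun m => (P * ((m : Ad0 p k) : M2 k) * Q) 0 0
      map_add' := fun m m' => by
        simp only [Submodule.coe_add, mul_add, add_mul, Matrix.add_apply]
      map_smul' := fun c m => by
        simp only [Submodule.coe_smul, Matrix.mul_smul, Matrix.smul_mul, Matrix.smul_apply,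
          RingHom.id_apply] }
  have hinj : Function.Injective φ := by
    rw [injective_iff_map_eq_zero]
    intro m hm
    have hm0 : (P * ((m : Ad0 p k) : M2 k) * Q) 0 0 = 0 := hm
    set M : M2 k := ((m : Ad0 p k) : M2 k) with hM
    have hcomm : g * M = M * g := m.2
    have htrM : M.trace = 0 := (mem_Ad0 p M).1 (m : Ad0 p k).2
    set Y : M2 k := P * M * Q with hY
    have hYD : !![α, 0; 0, β] * Y = Y * !![α, 0; 0, β] := by
      rw [← hD, hY]
      calc P * g * Q * (P * M * Q) = P * g * (Q * P) * M * Q := by simp only [mul_assoc]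
        _ = P * (g * M) * Q := by rw [hQP, mul_one]; simp only [mul_assoc]
        _ = P * (M * g) * Q := by rw [hcomm]
        _ = P * M * (Q * P) * g * Q := by rw [hQP, mul_one]; simp only [mul_assoc]
        _ = P * M * Q * (P * g * Q) := by simp only [mul_assoc]
    have htrY : Y.trace = 0 := by
      rw [hY, Matrix.trace_mul_comm, ← mul_assoc, hQP, one_mul, htrM]
    have h01 : Y 0 1 = 0 := by
      have := congrFun (congrFun hYD 0) 1
      simp [Matrix.mul_apply, Fin.sum_univ_two] at this
      have h' : (α - β) * Y 0 1 = 0 := by linear_combination this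
      exact (mul_eq_zero.1 h').resolve_left (sub_ne_zero.2 hαβ)
    have h10 : Y 1 0 = 0 := by
      have := congrFun (congrFun hYD 1) 0
      simp [Matrix.mul_apply, Fin.sum_univ_two] at this
      have h' : (α - β) * Y 1 0 = 0 := by linear_combination (-1 : k) * this
      exact (mul_eq_zero.1 h').resolve_left (sub_ne_zero.2 hαβ)
    have h11 : Y 1 1 = 0 := by
      rw [Matrix.trace_fin_two, hm0, zero_add] at htrY
      exact htrY
    have hY0 : Y = 0 := by
      ext i j
      fin_cases i <;> fin_cases j
      · exact hm0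
      · exact h01
      · exact h10
      · exact h11
    have hM0 : M = 0 := by
      calc M = (Q * P) * M * (Q * P) := by rw [hQP, one_mul, mul_one]
        _ = Q * (P * M * Q) * P := by simp only [mul_assoc]
        _ = 0 := by rw [← hY, hY0, mul_zero, zero_mul]
    apply Subtype.ext
    apply Subtype.ext
    exact hM0
  exact LinearMap.finrank_le_finrank_of_injective hinj

end Fermat.Agent.S56.Loc

end
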