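import Mathlib

/-!
# S56 / Loc / UnipCore : the cocycle of a unipotent lift is a coboundary on inertia (normalised coordinates).
TASK S56/Loc-UnipCore     (Mathlib only; explicit `2 × 2` matrices)

`G` a group, `I, U₀ ≤ G`, `M : G →* Matrix (Fin 2) (Fin 2) k`, `z : G → Matrix ..` a cocycle for the adjoint action,
`M σ₀ = !![1,1;0,1]` for some `σ₀ ∈ I`, on `I`: `tr M σ = 2`, `det M σ = 1`, `tr (z σ * M σ) = 0`, `tr z σ = 0`.
`hgen` = "every hom `I → k` killing `I ⊓ U₀` is `χ(·) • (its value at t)`".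
CLAIM: `∃ m, tr m = 0 ∧ ∀ σ ∈ I, z σ = M σ * m * M σ⁻¹ - m`.

PROOF (write `M σ = !![a,b;c,d]`, `z σ = !![α,β;γ,-α]`).
1. `σ ∈ I`: `σ * σ₀ ∈ I`, `tr (M σ * M σ₀) = a + c + d = 2`, so `c = 0`; `a + d = 2`, `a d = 1` ⟹ `(a-1)^2 = 0` ⟹ `a = d = 1`.
   So `M σ = !![1, x σ; 0, 1]` with `x σ := M σ 0 1`, `M σ⁻¹ = !![1, - x σ; 0, 1]`; `x` is additive on `I`, `x σ₀ = 1`, `x = 0` on `U₀`.
2. `tr (z σ * M σ) = γ σ * x σ` (using `tr z = 0`), so `γ σ * x σ = 0`.  `γ σ₀ = 0`.  If `x σ = 0`: `M σ = 1`, `z (σ σ₀) = z σ₀ + z σ`,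
   `x (σ σ₀) = 1`, so `γ (σ σ₀) = 0` and `γ σ = 0`.  Hence `γ = 0` on `I`.
3. For `m = !![α,β;0,-α]`: `!![1,x;0,1] * m * !![1,-x;0,1] = !![α, β - 2 x α; 0, -α]`.  So `α (σ τ) = α τ + α σ` on `I`: additive, `= 0` on `U₀`.
   `hgen`: `x a = χ a • x t`, `α a = χ a • α t`; `x σ₀ = 1` ⟹ `x t ≠ 0`; `w := α t / x t`: `α a = w * x a` (`smul_mul`/`Algebra.smul_def`; `ZMod p`-scalars commute with multiplication in `k`: `mul_smul_comm`).
4. `m₁ := !![0,0;w,0]`: `M σ * m₁ * M σ⁻¹ - m₁ = !![x w, - x^2 w; 0, - x w]`.  `z' := z - (that)` is again a cocycle on `I`, `= !![0, β'; 0, 0]`, `β' := β + x^2 w`, additive on `I`, `0` on `U₀`.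
   `β' a = v * x a`, `v := β' t / x t`.  `m₂ := !![-v/2, 0; 0, v/2]`: `M σ * m₂ * M σ⁻¹ - m₂ = !![0, x v; 0, 0]`.   `m := m₁ + m₂`.
-/

set_option autoImplicit false

namespace Fermat.Agent.S56.Loc

open Matrix

variable {p : ℕ} [Fact p.Prime] {k : Type} [Field k] [Algebra (ZMod p) k]

theorem UnipCore_conj (x a b c d : k) :
    !![1, x; 0, 1] * !![a, b; c, d] * !![1, -x; 0, 1] =
      !![a + x * c, -x * (a + x * c) + b + x * d; c, -x * c + d] := by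
  rw [Matrix.mul_fin_two, Matrix.mul_fin_two]
  ext i j
  fin_cases i <;> fin_cases j <;> simp <;> ring

theorem unip_core {G : Type} [Group G] (I U₀ : Subgroup G) (M : G →* Matrix (Fin 2) (Fin 2) k)
    (z : G → Matrix (Fin 2) (Fin 2) k) (h2 : (2 : k) ≠ 0)
    (hz : ∀ σ τ, z (σ * τ) = M σ * z τ * M σ⁻¹ + z σ)
    (htr : ∀ σ, (z σ).trace = 0)
    (hU₀ : ∀ σ ∈ U₀, M σ = 1 ∧ z σ = 0)
    (hgen : ∃ t ∈ I, ∃ χ : G → ZMod p, ∀ y : G → k, (∀ a ∈ I, ∀ b ∈ I, y (a * b) = y a + y b) →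
      (∀ a ∈ I, a ∈ U₀ → y a = 0) → ∀ a ∈ I, y a = χ a • y t)
    (σ₀ : G) (hσ₀ : σ₀ ∈ I) (hM₀ : M σ₀ = !![1, 1; 0, 1])
    (hM : ∀ σ ∈ I, (M σ).trace = 2 ∧ (M σ).det = 1) (hzM : ∀ σ ∈ I, (z σ * M σ).trace = 0) :
    ∃ m : Matrix (Fin 2) (Fin 2) k, m.trace = 0 ∧ ∀ σ ∈ I, z σ = M σ * m * M σ⁻¹ - m := by
  obtain ⟨t, ht, χ, hχ⟩ := hgen
  obtain ⟨x, hx⟩ : ∃ x : G → k, ∀ σ, x σ = M σ 0 1 := ⟨_, fun _ => rfl⟩
  -- Step 1
  have hMI : ∀ σ ∈ I, M σ = !![1, x σ; 0, 1] := by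
    intro σ hσ
    obtain ⟨e1, e2⟩ := hM σ hσ
    have e3 := (hM (σ * σ₀) (I.mul_mem hσ hσ₀)).1
    rw [map_mul, hM₀, Matrix.trace_fin_two] at e3
    simp only [Matrix.mul_apply, Fin.sum_univ_two, Matrix.of_apply, Matrix.cons_val', Matrix.cons_val_zero,
      Matrix.cons_val_one, Matrix.cons_val_fin_one, mul_one, mul_zero, add_zero] at e3
    rw [Matrix.trace_fin_two] at e1
    rw [Matrix.det_fin_two] at e2
    have hc : M σ 1 0 = 0 := by linear_combination e3 - e1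
    have ha : (M σ 0 0 - 1) ^ 2 = 0 := by
      linear_combination (M σ 0 0) * e1 - e2 - (M σ 0 1) * hc
    have ha' : M σ 0 0 = 1 := by
      have := (pow_eq_zero_iff (two_ne_zero)).1 ha
      linear_combination this
    have hd : M σ 1 1 = 1 := by linear_combination e1 - ha'
    calc M σ = !![M σ 0 0, M σ 0 1; M σ 1 0, M σ 1 1] := Matrix.eta_fin_two _
      _ = _ := by rw [ha', hc, hd, hx]
  have hx1 : x 1 = 0 := by
    rw [hx, map_one]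
    simp
  have hxadd : ∀ a ∈ I, ∀ b ∈ I, x (a * b) = x a + x b := by
    intro a ha b hb
    rw [hx (a * b), map_mul, hMI a ha, hMI b hb, Matrix.mul_fin_two]
    simp
    ring
  have hxinv : ∀ a ∈ I, x a⁻¹ = - x a := by
    intro a ha
    have := hxadd a ha a⁻¹ (I.inv_mem ha)
    rw [mul_inv_cancel, hx1] at this
    linear_combination -this
  have hMinv : ∀ σ ∈ I, M σ⁻¹ = !![1, -x σ; 0, 1] := by
    intro σ hσ
    rw [hMI _ (I.inv_mem hσ), hxinv σ hσ]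
  have hx0 : x σ₀ = 1 := by
    rw [hx, hM₀]
    simp
  have hxU : ∀ a ∈ I, a ∈ U₀ → x a = 0 := by
    intro a _ ha
    rw [hx, (hU₀ a ha).1]
    simp
  have hd : ∀ σ, z σ 1 1 = - z σ 0 0 := by
    intro σ
    have := htr σ
    rw [Matrix.trace_fin_two] at this
    linear_combination this
  have hzI : ∀ σ ∈ I, ∀ τ, z (σ * τ) = !![z τ 0 0 + x σ * z τ 1 0,
      -x σ * (z τ 0 0 + x σ * z τ 1 0) + z τ 0 1 + x σ * z τ 1 1; z τ 1 0,
      -x σ * z τ 1 0 + z τ 1 1] + z σ := by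
    intro σ hσ τ
    rw [hz, hMI σ hσ, hMinv σ hσ, ← UnipCore_conj, ← Matrix.eta_fin_two (z τ)]
  have h00 : ∀ σ ∈ I, ∀ τ, z (σ * τ) 0 0 = z τ 0 0 + x σ * z τ 1 0 + z σ 0 0 := by
    intro σ hσ τ
    rw [hzI σ hσ τ]
    simp
  have h01 : ∀ σ ∈ I, ∀ τ, z (σ * τ) 0 1 =
      -x σ * (z τ 0 0 + x σ * z τ 1 0) + z τ 0 1 + x σ * z τ 1 1 + z σ 0 1 := by
    intro σ hσ τ
    rw [hzI σ hσ τ]
    simp
  have h10 : ∀ σ ∈ I, ∀ τ, z (σ * τ) 1 0 = z τ 1 0 + z σ 1 0 := by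
    intro σ hσ τ
    rw [hzI σ hσ τ]
    simp
  -- Step 2
  have hγx : ∀ σ ∈ I, z σ 1 0 * x σ = 0 := by
    intro σ hσ
    have := hzM σ hσ
    rw [hMI σ hσ, Matrix.trace_fin_two] at this
    simp only [Matrix.mul_apply, Fin.sum_univ_two, Matrix.of_apply, Matrix.cons_val', Matrix.cons_val_zero,
      Matrix.cons_val_one, Matrix.cons_val_fin_one, mul_one, mul_zero, add_zero, hd] at this
    linear_combination this
  have hγ : ∀ σ ∈ I, z σ 1 0 = 0 := by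
    intro σ hσ
    have e1 := hγx σ hσ
    have e2 := hγx (σ * σ₀) (I.mul_mem hσ hσ₀)
    have e3 := hγx σ₀ hσ₀
    rw [hx0, mul_one] at e3
    rw [h10 σ hσ σ₀, e3, hxadd σ hσ σ₀ hσ₀, hx0] at e2
    linear_combination e2 - e1
  -- Step 3
  have hαadd : ∀ a ∈ I, ∀ b ∈ I, z (a * b) 0 0 = z a 0 0 + z b 0 0 := by
    intro a ha b hb
    rw [h00 a ha b, hγ b hb]
    ring
  have hαU : ∀ a ∈ I, a ∈ U₀ → z a 0 0 = 0 := by
    intro a _ ha
    rw [(hU₀ a ha).2]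
    rfl
  have hxχ := hχ x hxadd hxU
  have hαχ := hχ (fun a => z a 0 0) hαadd hαU
  have hxt : x t ≠ 0 := by
    intro h
    have := hxχ σ₀ hσ₀
    rw [hx0, h, smul_zero] at this
    exact one_ne_zero this
  obtain ⟨w, hw⟩ : ∃ w : k, w * x t = z t 0 0 := ⟨z t 0 0 / x t, div_mul_cancel₀ _ hxt⟩
  have hα : ∀ a ∈ I, z a 0 0 = w * x a := by
    intro a ha
    have e1 := hαχ a ha
    beta_reduce at e1
    rw [e1, hxχ a ha, mul_smul_comm, hw]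
  -- Step 4
  have hβadd : ∀ a ∈ I, ∀ b ∈ I, z (a * b) 0 1 + x (a * b) ^ 2 * w =
      (z a 0 1 + x a ^ 2 * w) + (z b 0 1 + x b ^ 2 * w) := by
    intro a ha b hb
    rw [h01 a ha b, hγ b hb, hd b, hα b hb, hxadd a ha b hb]
    ring
  have hβU : ∀ a ∈ I, a ∈ U₀ → z a 0 1 + x a ^ 2 * w = 0 := by
    intro a ha ha'
    rw [hxU a ha ha', (hU₀ a ha').2]
    simp
  have hβχ := hχ (fun a => z a 0 1 + x a ^ 2 * w) hβadd hβU
  obtain ⟨v, hv⟩ : ∃ v : k, v * x t = z t 0 1 + x t ^ 2 * w :=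
    ⟨(z t 0 1 + x t ^ 2 * w) / x t, div_mul_cancel₀ _ hxt⟩
  have hβ : ∀ a ∈ I, z a 0 1 + x a ^ 2 * w = v * x a := by
    intro a ha
    have e1 := hβχ a ha
    beta_reduce at e1
    rw [e1, hxχ a ha, mul_smul_comm, hv]
  obtain ⟨v2, hv2⟩ : ∃ v2 : k, 2 * v2 = v := ⟨v / 2, mul_div_cancel₀ _ h2⟩
  refine ⟨!![-v2, 0; w, v2], ?_, ?_⟩
  · rw [Matrix.trace_fin_two]
    simp
  intro σ hσ
  rw [hMI σ hσ, hMinv σ hσ, UnipCore_conj]
  have a00 := hα σ hσ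
  have a01 := hβ σ hσ
  have a10 := hγ σ hσ
  have a11 := hd σ
  ext i j
  fin_cases i <;> fin_cases j
  · simp
    linear_combination a00
  · simp
    linear_combination a01 - x σ * hv2
  · simp
    linear_combination a10
  · simp
    linear_combination a11 - a00

end Fermat.Agent.S56.Loc
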