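import Fermat.Agent.S55.Coh.All

/-!
# S56 / Loc / Ur : unramified classes (abstract).   TASK S56/Loc-Ur

`H` a group with levels `L`, `I ⊴ H`, `s : H` such that `H/I` is topologically generated by `s`
(`ProcyclicMod`).  `H1ur L ρ I := ker (H^1(H;X) → H^1(I;X))`.

MAIN: `finrank_H1ur_le : finrank (H1ur L ρ I) ≤ finrank (H0 ρ)`.

PROOF.  `Y := {x | ∀ i ∈ I, ρ i x = x}` (a subspace of `X`).
`Z' := {z ∈ Z1 L ρ | ∀ i ∈ I, z i = 0}` (a subspace of `↥(Z1 L ρ)`).
(a) for `z ∈ Z'`: `z (g * i) = z g`, `z (i * g) = ρ i (z g)`, and `i * g = g * (g⁻¹ * i * g)`, so `z g ∈ Y`.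
(b) `ev : Z' → Y, z ↦ z s` is injective: if `z s = 0` then `Nz := {n | z n = 0}` is a subgroup
    (`z (n m) = ρ n (z m) + z n`, `Z1.map_inv`, `Z1.map_one`), it contains `I`, it contains the open subgroup
    `U` under which `z` is right invariant (`z u = z (1 * u) = z 1 = 0`), so it is open
    (`L.isOpen_mono`); it contains `s ^ n`; by `h.gen Nz _ _ g`, `g = s ^ n * n'`, so `z g = 0`.
    Hence `finrank Z' ≤ finrank Y`.
(c) `H1.mk` maps `Z'` ONTO `H1ur` (`mem_H1ur_mk_iff`: subtract `d0 ρ m`, which is in `Z1` by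
    `B1_le_Z1`), and the kernel of `Z' → H1 L ρ` contains `{d0 ρ b | b ∈ Y}`, which is the image of the linear map
    `Y → Z'`, `b ↦ d0 ρ b`, whose kernel is `{b ∈ Y | ∀ g, ρ g b = b} = H0 ρ` (as a subspace of `Y`).
    So `finrank H1ur ≤ finrank Z' - (finrank Y - finrank H0) ≤ finrank H0`.
    (rank-nullity: `LinearMap.finrank_range_add_finrank_ker`.)
-/

set_option autoImplicit false

noncomputable section

namespace Fermat.Agent.S56.Loc

open Fermat.Agent.S55 Module

variable {k : Type} [Field k] {H : Type} [Group H]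
variable {X : Type} [AddCommGroup X] [Module k X]

/-- `I ⊴ H` and `H/I` is topologically generated by (the image of) `s`. -/
structure ProcyclicMod (L : Levels H) (I : Subgroup H) (s : H) : Prop where
  normal : I.Normal
  gen : ∀ N : Subgroup H, L.IsOpen N → I ≤ N → ∀ g : H, ∃ n : ℕ, (s ^ n)⁻¹ * g ∈ N

/-- the classes which die on `I`. -/
def H1ur (L : Levels H) (ρ : Representation k H X) (I : Subgroup H) : Submodule k (H1 L ρ) :=
  LinearMap.ker (Pair.res L ρ I).map1

/-- cocycle criterion. -/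
theorem mem_H1ur_mk_iff (L : Levels H) (ρ : Representation k H X) (I : Subgroup H)
    (z : ↥(Z1 L ρ)) :
    H1.mk L ρ z ∈ H1ur L ρ I ↔ ∃ m : X, ∀ i ∈ I, (z : H → X) i = ρ i m - m := by
  rw [H1ur, LinearMap.mem_ker, Pair.map1_mk, H1.mk_eq_zero_iff]
  constructor
  · rintro ⟨m, hm⟩
    exact ⟨m, fun i hi => hm ⟨i, hi⟩⟩
  · rintro ⟨m, hm⟩
    exact ⟨m, fun i => hm i i.2⟩

/-- invariants of `H` = vectors fixed by `I` and `s`. -/
theorem ProcyclicMod.mem_H0_iff {L : Levels H} {I : Subgroup H} {s : H} (h : ProcyclicMod L I s)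
    (ρ : Representation k H X) [Smooth L ρ] (x : X) :
    x ∈ H0 ρ ↔ (∀ i ∈ I, ρ i x = x) ∧ ρ s x = x := by
  rw [Representation.mem_invariants]
  constructor
  · intro hx
    exact ⟨fun i _ => hx i, hx s⟩
  · rintro ⟨hI, hs⟩ g
    let N : Subgroup H :=
      { carrier := {g | ρ g x = x}
        mul_mem' := by
          intro a b ha hb
          show ρ (a * b) x = x
          rw [map_mul, Module.End.mul_apply, hb, ha]
        one_mem' := by
          show ρ 1 x = x
          rw [map_one, Module.End.one_apply]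
        inv_mem' := by
          intro a ha
          show ρ a⁻¹ x = x
          have : ρ a⁻¹ (ρ a x) = x := by
            rw [← Module.End.mul_apply, ← map_mul, inv_mul_cancel, map_one, Module.End.one_apply]
          rwa [ha] at this }
    obtain ⟨U, hU, hUx⟩ := Smooth.exists_isOpen (L := L) (ρ := ρ) x
    have hN : L.IsOpen N := L.isOpen_mono hU (fun u hu => hUx u hu)
    obtain ⟨n, hn⟩ := h.gen N hN (fun i hi => hI i hi) g
    have hsn : s ^ n ∈ N := N.pow_mem hs n
    have : g = s ^ n * ((s ^ n)⁻¹ * g) := by group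
    rw [this]
    exact N.mul_mem hsn hn

/-- a hom with open kernel which kills `I` has image generated by the image of `s`. -/
theorem ProcyclicMod.exists_pow_eq {L : Levels H} {I : Subgroup H} {s : H}
    (h : ProcyclicMod L I s) {Γ : Type} [Group Γ] (f : H →* Γ) (hf : L.IsOpen f.ker)
    (hI : I ≤ f.ker) (g : H) : ∃ n : ℕ, f g = f s ^ n := by
  obtain ⟨n, hn⟩ := h.gen f.ker hf hI g
  refine ⟨n, ?_⟩
  rw [MonoidHom.mem_ker, map_mul, map_inv, map_pow, inv_mul_eq_one] at hn
  exact hn.symm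

/-- vectors fixed by `I`. -/
def fixI (ρ : Representation k H X) (I : Subgroup H) : Submodule k X where
  carrier := {x | ∀ i ∈ I, ρ i x = x}
  add_mem' := by
    intro a b ha hb i hi
    rw [map_add, ha i hi, hb i hi]
  zero_mem' := by
    intro i _
    rw [map_zero]
  smul_mem' := by
    intro c a ha i hi
    rw [map_smul, ha i hi]

/-- cocycles vanishing on `I`. -/
def Z1I (L : Levels H) (ρ : Representation k H X) (I : Subgroup H) : Submodule k (H → X) where
  carrier := {z | z ∈ Z1 L ρ ∧ ∀ i ∈ I, z i = 0}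
  add_mem' := by
    intro a b ha hb
    refine ⟨add_mem ha.1 hb.1, fun i hi => ?_⟩
    show a i + b i = 0
    rw [ha.2 i hi, hb.2 i hi, add_zero]
  zero_mem' := ⟨zero_mem _, fun _ _ => rfl⟩
  smul_mem' := by
    intro c a ha
    refine ⟨Submodule.smul_mem _ c ha.1, fun i hi => ?_⟩
    show c • a i = 0
    rw [ha.2 i hi, smul_zero]

theorem Z1I_le (L : Levels H) (ρ : Representation k H X) (I : Subgroup H) : Z1I L ρ I ≤ Z1 L ρ :=
  fun _ hz => hz.1

/-- abstract rank count. -/
theorem finrank_range_le_of_inj {Z Y Q : Type*} [AddCommGroup Z] [Module k Z] [AddCommGroup Y]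
    [Module k Y] [AddCommGroup Q] [Module k Q] [FiniteDimensional k Y]
    (ev : Z →ₗ[k] Y) (hev : Function.Injective ev) (δ : Y →ₗ[k] Z) (π' : Z →ₗ[k] Q)
    (hπ : ∀ b, π' (δ b) = 0) :
    finrank k (LinearMap.range π') ≤ finrank k (LinearMap.ker δ) := by
  have : FiniteDimensional k Z := FiniteDimensional.of_injective ev hev
  have h4 : finrank k Z ≤ finrank k Y := LinearMap.finrank_le_finrank_of_injective hev
  have h1 := LinearMap.finrank_range_add_finrank_ker π'
  have h2 := LinearMap.finrank_range_add_finrank_ker δ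
  have h3 : finrank k (LinearMap.range δ) ≤ finrank k (LinearMap.ker π') := by
    apply Submodule.finrank_mono
    rintro _ ⟨b, rfl⟩
    exact hπ b
  omega

/-- **MAIN**. -/
theorem finrank_H1ur_le {L : Levels H} {I : Subgroup H} {s : H} (h : ProcyclicMod L I s)
    (ρ : Representation k H X) [FiniteDimensional k X] [Smooth L ρ] :
    finrank k ↥(H1ur L ρ I) ≤ finrank k ↥(H0 ρ) := by
  classical
  have hnorm := h.normal
  have hcoc : ∀ z ∈ Z1 L ρ, ∀ a b : H, z (a * b) = ρ a (z b) + z a :=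
    fun z hz => (mem_Z1.1 hz).1
  -- (a)
  have hY : ∀ z : ↥(Z1I L ρ I), ∀ g : H, (z : H → X) g ∈ fixI ρ I := by
    intro z g i hi
    have h1 := hcoc z z.2.1 i g
    rw [z.2.2 i hi, add_zero] at h1
    have h2 : i * g = g * (g⁻¹ * i * g) := by group
    have h3 : g⁻¹ * i * g ∈ I := by
      have := hnorm.conj_mem i hi g⁻¹
      rwa [inv_inv] at this
    rw [← h1, h2, hcoc z z.2.1 g, z.2.2 _ h3, map_zero, zero_add]
  -- (b)
  let ev : ↥(Z1I L ρ I) →ₗ[k] ↥(fixI ρ I) :=
    { toFun := fun z => ⟨(z : H → X) s, hY z s⟩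
      map_add' := fun _ _ => rfl
      map_smul' := fun _ _ => rfl }
  have hev : Function.Injective ev := by
    apply LinearMap.ker_eq_bot.1
    rw [LinearMap.ker_eq_bot']
    intro z hz
    have hzs : (z : H → X) s = 0 := congrArg Subtype.val hz
    let Nz : Subgroup H :=
      { carrier := {n | (z : H → X) n = 0}
        mul_mem' := by
          intro a b ha hb
          show (z : H → X) (a * b) = 0
          rw [hcoc z z.2.1, hb, ha, map_zero, add_zero]
        one_mem' := Z1.map_one z.2.1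
        inv_mem' := by
          intro a ha
          show (z : H → X) a⁻¹ = 0
          rw [Z1.map_inv z.2.1, ha, map_zero, neg_zero] }
    obtain ⟨U, hU, hUz⟩ := (mem_Z1.1 z.2.1).2
    have hNz : L.IsOpen Nz := L.isOpen_mono hU (fun u hu => by
      show (z : H → X) u = 0
      have := hUz 1 u hu
      rw [one_mul] at this
      rw [this]
      exact Z1.map_one z.2.1)
    apply Subtype.ext
    funext g
    obtain ⟨n, hn⟩ := h.gen Nz hNz (fun i hi => z.2.2 i hi) g
    have hsn : s ^ n ∈ Nz := Nz.pow_mem hzs n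
    have hg : g = s ^ n * ((s ^ n)⁻¹ * g) := by group
    have : g ∈ Nz := by
      rw [hg]
      exact Nz.mul_mem hsn hn
    exact this
  -- (c)
  let δ : ↥(fixI ρ I) →ₗ[k] ↥(Z1I L ρ I) :=
    { toFun := fun b => ⟨d0 ρ b, B1_le_Z1 (L := L) ⟨b, rfl⟩, fun i hi => by
        show ρ i (b : X) - b = 0
        rw [b.2 i hi, sub_self]⟩
      map_add' := fun a b => by
        apply Subtype.ext
        exact map_add (d0 ρ) _ _
      map_smul' := fun c b => by
        apply Subtype.ext
        exact map_smul (d0 ρ) _ _ }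
  let π' : ↥(Z1I L ρ I) →ₗ[k] H1 L ρ := (H1.mk L ρ).comp (Submodule.inclusion (Z1I_le L ρ I))
  have hπ : ∀ b, π' (δ b) = 0 := by
    intro b
    show H1.mk L ρ _ = 0
    rw [H1.mk_eq_zero_iff]
    exact ⟨b, fun g => rfl⟩
  have hmain := finrank_range_le_of_inj ev hev δ π' hπ
  have h5 : finrank k (LinearMap.ker δ) = finrank k ↥(H0 ρ) := by
    have hle : H0 ρ ≤ fixI ρ I := fun x hx i _ => hx i
    have hker : LinearMap.ker δ = (H0 ρ).comap (fixI ρ I).subtype := by
      ext b
      rw [LinearMap.mem_ker, Submodule.mem_comap, Representation.mem_invariants]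
      constructor
      · intro hb g
        have := congrFun (congrArg (fun z : ↥(Z1I L ρ I) => (z : H → X)) hb) g
        exact sub_eq_zero.1 this
      · intro hb
        apply Subtype.ext
        funext g
        show ρ g (b : X) - b = 0
        exact sub_eq_zero.2 (hb g)
    rw [hker]
    exact (Submodule.comapSubtypeEquivOfLe hle).finrank_eq
  have h6 : H1ur L ρ I = LinearMap.range π' := by
    ext x
    constructor
    · intro hx
      obtain ⟨z, rfl⟩ := H1.mk_surjective L ρ x
      obtain ⟨m, hm⟩ := (mem_H1ur_mk_iff L ρ I z).1 hx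
      let dm : ↥(Z1 L ρ) := ⟨d0 ρ m, B1_le_Z1 (L := L) ⟨m, rfl⟩⟩
      refine ⟨⟨((z - dm : ↥(Z1 L ρ)) : H → X), (z - dm).2, fun i hi => ?_⟩, ?_⟩
      · show (z : H → X) i - (ρ i m - m) = 0
        rw [hm i hi, sub_self]
      · show H1.mk L ρ (z - dm) = H1.mk L ρ z
        rw [map_sub]
        have : H1.mk L ρ dm = 0 := (H1.mk_eq_zero_iff dm).2 ⟨m, fun g => rfl⟩
        rw [this, sub_zero]
    · rintro ⟨z, rfl⟩
      show H1.mk L ρ (⟨z, z.2.1⟩ : ↥(Z1 L ρ)) ∈ H1ur L ρ I
      rw [mem_H1ur_mk_iff]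
      exact ⟨0, fun i hi => by
        show (z : H → X) i = _
        rw [z.2.2 i hi, map_zero, sub_zero]⟩
  rw [h6, ← h5]
  exact hmain

end Fermat.Agent.S56.Loc

end
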